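import Fermat.Agent.S42x.Asm.H23_Eig
import Fermat.Agent.S42x.Kum.H12_KumRel

/-!
# W7 (S42 / S29): (EIG) from (B1) and the Kummer relation `KumRel` (helper23)

`h23_stEig_of_kum`: `Asm.StEig N p g 𝔪` from the three substantial properties of helper12's
Kummer relation `KumRel N p e ζ` (`ζ` a primitive `p`-th root of unity):
existence (K-ex), uniqueness (K-uniq) and Hecke equivariance (K-hecke).  The formal properties
(K-add), (K-tors), (K-inj-easy) are helper12's theorems.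
-/

set_option autoImplicit false
set_option linter.style.haveILetI false

namespace Fermat.Agent.S42x.Asm.H23

open ModularCurve ModularCurve.Period CongruenceSubgroup ModularFormClass
open Fermat.Agent.S22 Fermat.Agent.S16x.Low.H5 Fermat.Agent.S42x.Kum.H12
open scoped MatrixGroups

/-- **(EIG) from (K-ex), (K-uniq), (K-hecke).** -/
theorem h23_stEig_of_kum (N p : ℕ) [NeZero N] [Fact p.Prime]
    (g : CuspForm (Gamma0 N) 2) (hg : g.IsNormalizedEigenform)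
    (𝔪 : Ideal Zbar) [𝔪.IsMaximal] (hp : (p : Zbar) ∈ 𝔪)
    (e : AlgebraicClosure ℚ →+* ℂ) (ζ : ℂ) (hζ : IsPrimitiveRoot ζ p)
    (hex : ∀ b, IsParabolicHom (Gamma0 N) b → ∃ x, KumRel N p e ζ x b)
    (huniq : ∀ x, KumRel N p e ζ x 0 → x = 0)
    (hhecke : ∀ ℓ : Nat.Primes, ¬ (ℓ : ℕ) ∣ N * p → ∀ x b b', KumRel N p e ζ x b →
      IsParabolicHom (Gamma0 N) b →
      (haveI : Fact (ℓ : ℕ).Prime := ⟨ℓ.2⟩
       ∀ (γ : Gamma0 N) (σ : Equiv.Perm (OnePoint (ZMod (ℓ : ℕ))))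
        (γ' : OnePoint (ZMod (ℓ : ℕ)) → SL(2, ℤ))
        (h : CosetData (tA ℓ) (tB ℓ) (tD ℓ) N (γ : SL(2, ℤ)) σ γ'),
        ∑ i, b (Additive.ofMul (⟨γ' i, h.1 i⟩ : Gamma0 N)) = b' (Additive.ofMul γ)) →
      KumRel N p e ζ (heckeOperatorBar N ℓ x) b') :
    StEig N p g 𝔪 := by
  have hp0 : p ≠ 0 := (Fact.out : p.Prime).ne_zero
  have hζ0 : ζ ≠ 0 := hζ.ne_zero hp0
  exact h23_stEig_of_rel N p g hg 𝔪 hp (KumRel N p e ζ) hex
    (fun _ _ _ _ h h' => kumRel_add hζ0 h h') (fun _ _ h => kumRel_neg h) kumRel_zero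
    (fun _ _ h => kumRel_torsion h) (fun _ h γ => kumRel_inj_easy hp0 hζ h γ) huniq hhecke

end Fermat.Agent.S42x.Asm.H23
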