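import Fermat.Agent.S42x.Asm.H5_Tops
import Fermat.Agent.S42x.Heq.H23_Asm
import Fermat.Agent.S42x.Kum.H28_All
import Fermat.Agent.S42x.Desc.H26_DescInst
import Fermat.Agent.S42x.Root.H9_Uniq

/-!
# W7 (S42 / S29): the final plug (helper15)

The frozen statements of S42 and S29 from the two Props which are still open:

* **(KH-AN)** `Heq.H23.StHeckeAn N p e ζ` (the analytic half of (K-hecke));
* **(GAL)** `S37x.Asm.StSpec N p` (the core of S37).

Plugged here: (K-ex) for every prime `p` (helper28's `h28_kex_of` + helper26's `h26_desc` +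
helper12's `baseF`), (K-uniq) (helper9's `h9_kumRel_uniq`), (EIG) (helper23's
`h23_stEig_of_an`), the tops of helper5.  The embedding `e : ℚ̄ → ℂ` and the root of unity
`ζ = exp (2 π i / p)` are chosen here.
-/

set_option autoImplicit false
set_option linter.style.haveILetI false

namespace Fermat.Agent.S42x.Asm.H15

open Fermat.Agent.S42x.Asm

/-- the chosen embedding `ℚ̄ → ℂ` -/
noncomputable def h15Emb : AlgebraicClosure ℚ →+* ℂ :=
  haveI : Algebra.IsAlgebraic ℚ (AlgebraicClosure ℚ) := AlgebraicClosure.isAlgebraic ℚ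
  (IsAlgClosed.lift (R := ℚ) (S := AlgebraicClosure ℚ) (M := ℂ)).toRingHom

/-- the chosen primitive `p`-th root of unity -/
noncomputable def h15Zeta (p : ℕ) : ℂ := Complex.exp (2 * Real.pi * Complex.I / p)

theorem h15Zeta_prim (p : ℕ) (hp : p ≠ 0) : IsPrimitiveRoot (h15Zeta p) p :=
  Complex.isPrimitiveRoot_exp p hp

/-- **(K-ex)** for every `p ≠ 0`, hypothesis-free. -/
theorem h15_kex (N : ℕ) [NeZero N] (p : ℕ) (hp : p ≠ 0)
    (e : AlgebraicClosure ℚ →+* ℂ) (ζ : ℂ) (hζ : ζ ^ p = 1)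
    (b : Additive (CongruenceSubgroup.Gamma0 N) →+ ℤ)
    (hb : ModularCurve.Period.IsParabolicHom (CongruenceSubgroup.Gamma0 N) b) :
    ∃ x : ModularCurve.JZero N, Fermat.Agent.S42x.Kum.H12.KumRel N p e ζ x b :=
  Fermat.Agent.S42x.Kum.H28.h28_kex_of N p hp e ζ hζ
    (Fermat.Agent.S42x.Kum.H12.baseF e N) (Fermat.Agent.S42x.Kum.H12.iota_baseF e)
    (fun fC hf hdiv => Fermat.Agent.S42x.Desc.H26.h26_desc N p hp e fC hf hdiv) b hb

/-- **(EIG)** from (KH-AN), every prime `p`. -/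
theorem h15_stEig_of_an (N p : ℕ) [NeZero N] [Fact p.Prime]
    (g : CuspForm (CongruenceSubgroup.Gamma0 N) 2) (hg : g.IsNormalizedEigenform)
    (𝔪 : Ideal Zbar) [𝔪.IsMaximal] (hp : (p : Zbar) ∈ 𝔪)
    (han : Fermat.Agent.S42x.Heq.H23.StHeckeAn N p h15Emb (h15Zeta p)) :
    StEig N p g 𝔪 :=
  have hp0 : p ≠ 0 := (Fact.out : p.Prime).ne_zero
  Fermat.Agent.S42x.Heq.H23.h23_stEig_of_an N p g hg 𝔪 hp h15Emb (h15Zeta p)
    (h15Zeta_prim p hp0)
    (fun b hb => h15_kex N p hp0 h15Emb (h15Zeta p) ((h15Zeta_prim p hp0).pow_eq_one) b hb)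
    (fun x h => Fermat.Agent.S42x.Root.H9.h9_kumRel_uniq N p hp0 h15Emb (h15Zeta p) x h)
    han

/-- **The frozen statement of S42** from (KH-AN) and (GAL). -/
theorem h15_s42_of (P : FreyPackage)
    (han : ∀ (M : ℕ) [NeZero M],
      Fermat.Agent.S42x.Heq.H23.StHeckeAn M P.p h15Emb (h15Zeta P.p))
    (hSpec : ∀ (M : ℕ) [NeZero M], Fermat.Agent.S37x.Asm.StSpec M P.p) :
    ∀ M : ℕ, 0 < M → P.EigenformResidualAttachmentAt M := by
  haveI : Fact P.p.Prime := ⟨P.pp⟩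
  refine Fermat.Agent.S42x.Asm.H5.h5_s42_of_two P ?_ hSpec
  intro M _ g hg 𝔪 _ hp
  exact h15_stEig_of_an M P.p g hg 𝔪 hp (han M)

/-- **The frozen statement of S29** from (KH-AN) and (GAL). -/
theorem h15_s29_of
    (han : ∀ (N : ℕ) [NeZero N] (p : ℕ), p.Prime →
      Fermat.Agent.S42x.Heq.H23.StHeckeAn N p h15Emb (h15Zeta p))
    (hSpec : ∀ (N : ℕ) [NeZero N] (p : ℕ), p.Prime → Fermat.Agent.S37x.Asm.StSpec N p)
    {N : ℕ} {g : CuspForm (CongruenceSubgroup.Gamma0 N) 2} (hg : g.IsNormalizedEigenform)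
    {p : ℕ} (hp : p.Prime) {k : Type} [Field k] [CharP k p]
    (φ : integralClosure ℤ ℂ →+* k) :
    ∃ ρ : ResidualGaloisRep k, ρ.IsAttachedTo g φ ∧
      ∀ ℓ : ℕ, ℓ.Prime → ¬ ℓ ∣ N * p → ρ.IsUnramifiedAt ℓ := by
  refine Fermat.Agent.S42x.Asm.H5.h5_s29_of_two ?_ hSpec hg hp φ
  intro N _ g hg p hpf 𝔪 _ hpm
  exact h15_stEig_of_an N p g hg 𝔪 hpm (han N p hpf.out)

end Fermat.Agent.S42x.Asm.H15
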