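import Mathlib
import Fermat.Prelude.Def_GaloisRep_Residual
import Fermat.Prelude.Def_FreyPackage_EigenformResidualAttachment
import Fermat.Prelude.Def_ModularCurve_HeckeModule
import Fermat.Agent.S37x.Asm.Defs

/-!
# W7 (S42 + S29), top interface (helper15, chief)

`G = Gal(ℚ̄ / ℚ)`, `J = JZero N`, `T_ℓ = heckeOperatorBar N ℓ`, `Z̄ = integralClosure ℤ ℂ`,
`κ = Z̄ ⧸ 𝔪`.

* `StCore N p g 𝔪`  : the mod-`𝔪` Galois representation of the eigenform `g`
                      (target of W7; S42 and S29 follow formally);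
* `StEig N p g 𝔪`   : **(EIG)** the eigen-system of `g` mod `𝔪` occurs in `J[p] ⊗ κ`, in matrix
                      form (no tensor products);
* `StHeckeGal N`    : **(GAL')** the Hecke operators commute with the Galois action on `J`;
* `StCyc p`         : **(CYC)** the mod-`p` cyclotomic character;
* `StDens`          : **(DENS)** Frobenius' density theorem in the prelude's spelling;
* **(GAL)** is `Fermat.Agent.S37x.Asm.StSpec N p`.
-/

set_option autoImplicit false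
set_option synthInstance.maxHeartbeats 400000
set_option maxHeartbeats 1000000

open ModularCurve Polynomial

noncomputable section

namespace Fermat.Agent.S42x.Asm

/-- `Z̄`, the ring of algebraic integers inside `ℂ`. -/
abbrev Zbar : Type := integralClosure ℤ ℂ

/-- The absolute Galois group of `ℚ`. -/
abbrev GQ : Type := AlgebraicClosure ℚ ≃ₐ[ℚ] AlgebraicClosure ℚ

/-- **(GAL')** the Hecke operators commute with the Galois action on `J₀(N)`. -/
def StHeckeGal (N : ℕ) [NeZero N] : Prop :=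
  ∀ (ℓ : Nat.Primes) (σ : GQ) (x : JZero N),
    heckeOperatorBar N ℓ (σ • x) = σ • heckeOperatorBar N ℓ x

/-- **(EIG)**, matrix form: classes `x_j ∈ J[p]`, independent mod `p`, spanning a subgroup stable
under the `T_ℓ` (`ℓ ∤ N p`) with integer matrices `t ℓ`, and a common eigenvector `w ≠ 0` of the
`t ℓ` over `κ = Z̄ ⧸ 𝔪` with eigenvalues `a_ℓ(g)`: the element `∑ x_j ⊗ w_j` of `J[p] ⊗ κ` is a
non-zero eigenvector of every `T_ℓ` with eigenvalue `a_ℓ(g) mod 𝔪`. -/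
def StEig (N p : ℕ) [NeZero N] (g : CuspForm (CongruenceSubgroup.Gamma0 N) 2)
    (𝔪 : Ideal Zbar) : Prop :=
  ∃ (n : ℕ) (x : Fin n → JZero N) (w : Fin n → Zbar ⧸ 𝔪)
    (t : Nat.Primes → Matrix (Fin n) (Fin n) ℤ) (a : Nat.Primes → Zbar),
    (∀ j, p • x j = 0) ∧
    (∀ c : Fin n → ℤ, ∑ j, c j • x j = 0 → ∀ j, (p : ℤ) ∣ c j) ∧
    (∃ j, w j ≠ 0) ∧
    ∀ ℓ : Nat.Primes, ¬ (ℓ : ℕ) ∣ N * p →
      ((a ℓ : Zbar) : ℂ) = ModularFormClass.qCoeff g ℓ ∧
      (∀ j, heckeOperatorBar N ℓ (x j) = ∑ i, t ℓ i j • x i) ∧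
      ∀ i, ∑ j, ((t ℓ i j : ℤ) : Zbar ⧸ 𝔪) * w j = Ideal.Quotient.mk 𝔪 (a ℓ) * w i

/-- **(CYC)** the mod-`p` cyclotomic character: a character `d` of `G` with values in
`(ℤ/p)ˣ`, trivial on inertia and equal to `ℓ` on Frobenius elements at every `ℓ ≠ p`, and
factoring through a number field. -/
def StCyc (p : ℕ) : Prop :=
  ∃ d : GQ →* (ZMod p)ˣ,
    (∀ ℓ : ℕ, ℓ.Prime → ℓ ≠ p → ∀ A : ValuationSubring (AlgebraicClosure ℚ), A.LiesOverPrime ℓ →
      (∀ τ ∈ A.inertiaSubgroupIn ℚ, d τ = 1) ∧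
      ∀ σ : GQ, A.IsFrobeniusAt σ ℓ → ((d σ : (ZMod p)ˣ) : ZMod p) = (ℓ : ZMod p)) ∧
    ∃ K : IntermediateField ℚ (AlgebraicClosure ℚ), FiniteDimensional ℚ K ∧
      ∀ σ : GQ, (∀ x ∈ K, σ x = x) → d σ = 1

/-- **(DENS)** Frobenius' density theorem (weak form): modulo any number field `K`, every
element of `G` is a power of a Frobenius element at a prime outside any given finite set. -/
def StDens : Prop :=
  ∀ (K : IntermediateField ℚ (AlgebraicClosure ℚ)), FiniteDimensional ℚ K →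
    ∀ (S : Finset ℕ) (h : GQ),
      ∃ (ℓ : ℕ) (A : ValuationSubring (AlgebraicClosure ℚ)) (σ : GQ) (k : ℕ),
        ℓ.Prime ∧ ℓ ∉ S ∧ A.LiesOverPrime ℓ ∧ A.IsFrobeniusAt σ ℓ ∧
          ∀ x ∈ K, h x = (σ ^ k) x

/-- **(CORE)** the mod-`𝔪` Galois representation attached to the eigenform `g`: the statement
of S29 for the field `Z̄ ⧸ 𝔪` and the quotient map. -/
def StCore (N p : ℕ) (g : CuspForm (CongruenceSubgroup.Gamma0 N) 2) (𝔪 : Ideal Zbar)
    [𝔪.IsMaximal] : Prop :=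
  letI : Field (Zbar ⧸ 𝔪) := Ideal.Quotient.field 𝔪
  ∃ ρ : ResidualGaloisRep (Zbar ⧸ 𝔪), ρ.IsAttachedTo g (Ideal.Quotient.mk 𝔪) ∧
    ∀ ℓ : ℕ, ℓ.Prime → ¬ ℓ ∣ N * p → ρ.IsUnramifiedAt ℓ

/-- **(FREY)** the mod-`p` representation of the Frey curve factors through a number field. -/
def StFrey (P : FreyPackage) : Prop :=
  GaloisFactorsThroughFiniteLevel
    (WeierstrassCurve.Affine.Point.galoisRepModuleEnd (S := ℚ) (K := AlgebraicClosure ℚ)
      P.freyCurve P.p)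

end Fermat.Agent.S42x.Asm
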