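import Fermat.Agent.S42x.Asm.Defs
import Fermat.Agent.S37x.Red.H15_Rat

/-!
# W7 (ASM-CORE), pieces (AC1) and (AC2) (helper5)

* (AC1) `h5_inertia_torsion`, `h5_frob_torsion` : from `S37x.Asm.StSpec N p` alone, inertia at
  `ℓ ∤ N p` acts trivially on `J[p]` and EVERY Frobenius element `σ` at `ℓ` satisfies
  `σ² x - T_ℓ σ x + ℓ x = 0` on `J[p]`;
* (AC2) `h5_stab` : every class `x : JZero N` is fixed by `Gal(ℚ̄ / K₀)` for a number field `K₀`;
  `h5_stab_fin` : finitely many classes; `h5_stab_normal` : a NORMAL number field fixing all the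
  Galois translates of finitely many classes.
-/

set_option autoImplicit false
set_option synthInstance.maxHeartbeats 400000
set_option maxHeartbeats 1000000

open ModularCurve AlgebraicCurve

noncomputable section

namespace Fermat.Agent.S42x.Asm.H5

local notation "Qbar" => AlgebraicClosure ℚ

/-! ### Frobenius elements and inertia -/

/-- Two Frobenius elements at the same valuation subring differ by an element of inertia. -/
theorem h5_frob_inv_mul_mem_inertia (A : ValuationSubring Qbar) {q : ℕ} (σ₀ σ : GQ)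
    (h₀ : A.IsFrobeniusAt σ₀ q) (h : A.IsFrobeniusAt σ q) :
    σ₀⁻¹ * σ ∈ A.inertiaSubgroupIn ℚ := by
  obtain ⟨h₀', e₀⟩ := h₀
  obtain ⟨h', e⟩ := h
  refine ⟨(⟨σ₀, h₀'⟩ : A.decompositionSubgroup ℚ)⁻¹ * ⟨σ, h'⟩, ?_, rfl⟩
  change MulSemiringAction.toRingAut (A.decompositionSubgroup ℚ) (IsLocalRing.ResidueField A)
    ((⟨σ₀, h₀'⟩ : A.decompositionSubgroup ℚ)⁻¹ * ⟨σ, h'⟩) = 1
  apply RingEquiv.ext
  intro x
  change ((⟨σ₀, h₀'⟩ : A.decompositionSubgroup ℚ)⁻¹ * ⟨σ, h'⟩) • x = x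
  rw [mul_smul, e x, ← e₀ x, inv_smul_smul]

theorem h5_smul_nsmul {N : ℕ} (σ : GQ) (n : ℕ) (x : JZero N) : σ • (n • x) = n • (σ • x) :=
  map_nsmul (DistribSMul.toAddMonoidHom (JZero N) σ) n x

theorem h5_smul_zero {N : ℕ} (σ : GQ) : σ • (0 : JZero N) = 0 :=
  map_zero (DistribSMul.toAddMonoidHom (JZero N) σ)

variable {N p : ℕ} [NeZero N]

/-- **(AC1)(i)** inertia at `ℓ ∤ N p` acts trivially on `J[p]`. -/
theorem h5_inertia_torsion (hSpec : Fermat.Agent.S37x.Asm.StSpec N p) {ℓ : ℕ} (hℓ : ℓ.Prime)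
    (hℓN : ¬ ℓ ∣ N * p) (A : ValuationSubring Qbar) (hA : A.LiesOverPrime ℓ) (τ : GQ)
    (hτ : τ ∈ A.inertiaSubgroupIn ℚ) (x : JZero N) (hx : p • x = 0) : τ • x = x := by
  obtain ⟨M, _, ρ, hinj, hin, -⟩ := hSpec ℓ hℓ hℓN A hA
  have h1 : ρ (τ • x - x) = 0 := by rw [map_sub, hin τ hτ x, sub_self]
  have h2 : ∃ n : ℕ, p ^ n • (τ • x - x) = 0 :=
    ⟨1, by rw [pow_one, nsmul_sub, ← h5_smul_nsmul, hx, h5_smul_zero, sub_self]⟩
  exact sub_eq_zero.mp (hinj _ h2 h1)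

/-- **(AC1)(ii)** EVERY Frobenius element at `ℓ ∤ N p` satisfies the Eichler–Shimura relation on
`J[p]`. -/
theorem h5_frob_torsion (hSpec : Fermat.Agent.S37x.Asm.StSpec N p) {ℓ : ℕ} (hℓ : ℓ.Prime)
    (hℓN : ¬ ℓ ∣ N * p) (A : ValuationSubring Qbar) (hA : A.LiesOverPrime ℓ) (σ : GQ)
    (hσ : A.IsFrobeniusAt σ ℓ) (x : JZero N) (hx : p • x = 0) :
    σ • σ • x - heckeOperatorBar N ⟨ℓ, hℓ⟩ (σ • x) + ℓ • x = 0 := by
  obtain ⟨M, _, ρ, hinj, hin, σ₀, hσ₀, hES⟩ := hSpec ℓ hℓ hℓN A hA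
  -- `σ = σ₀ * τ` with `τ` in inertia
  have hτ : σ₀⁻¹ * σ ∈ A.inertiaSubgroupIn ℚ := h5_frob_inv_mul_mem_inertia A σ₀ σ hσ₀ hσ
  have htriv : ∀ y : JZero N, p • y = 0 → σ • y = σ₀ • y := by
    intro y hy
    have h1 := h5_inertia_torsion hSpec hℓ hℓN A hA _ hτ y hy
    calc σ • y = (σ₀ * (σ₀⁻¹ * σ)) • y := by rw [mul_inv_cancel_left]
      _ = σ₀ • ((σ₀⁻¹ * σ) • y) := mul_smul _ _ _
      _ = σ₀ • y := by rw [h1]
  have hσx : p • (σ₀ • x) = 0 := by rw [← h5_smul_nsmul, hx, h5_smul_zero]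
  rw [htriv x hx, htriv (σ₀ • x) hσx]
  -- the relation for `σ₀`
  have h1 := hES x
  have h2 : ∃ n : ℕ, p ^ n •
      (σ₀ • σ₀ • x - heckeOperatorBar N ⟨ℓ, hℓ⟩ (σ₀ • x) + ℓ • x) = 0 := by
    refine ⟨1, ?_⟩
    rw [pow_one, nsmul_add, nsmul_sub, ← h5_smul_nsmul, hσx, h5_smul_zero, ← map_nsmul, hσx,
      map_zero, smul_comm p ℓ x, hx, smul_zero, sub_self, add_zero]
  exact hinj _ h2 h1

/-! ### Stabilisers of classes -/

variable (N)

omit [NeZero N] in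
/-- An automorphism fixing every place in the support of a divisor fixes the divisor. -/
theorem h5_divisor_smul_eq (g : SemilinearAut Qbar ↥(modularFunctionFieldBar N))
    (D : Divisor Qbar ↥(modularFunctionFieldBar N))
    (h : ∀ P ∈ D.support, g • P = P) : g • D = D := by
  rw [SemilinearAut.divisor_smul_def]
  conv_rhs => rw [← Finsupp.mapDomain_id (v := D)]
  exact Finsupp.mapDomain_congr h

/-- Every divisor is fixed by `Gal(ℚ̄ / K₀)` for a number field `K₀`. -/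
theorem h5_stab_divisor (D : Divisor Qbar ↥(modularFunctionFieldBar N)) :
    ∃ K₀ : IntermediateField ℚ Qbar, FiniteDimensional ℚ K₀ ∧
      ∀ σ : GQ, (∀ a ∈ K₀, σ a = a) →
        arithmeticGalois (modularFunctionFieldFull N) σ • D = D := by
  classical
  induction D using Finsupp.induction with
  | zero =>
    exact ⟨⊥, inferInstance, fun σ _ => smul_zero _⟩
  | single_add P n D _ _ ih =>
    obtain ⟨K₁, hK₁, h₁⟩ := ih
    obtain ⟨K₂, hK₂, h₂⟩ := Fermat.Agent.S37x.Red.H15.h15_stab (M := N) P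
    refine ⟨K₁ ⊔ K₂, IntermediateField.finiteDimensional_sup K₁ K₂, fun σ hσ => ?_⟩
    rw [smul_add, SemilinearAut.smul_single,
      h₁ σ fun a ha => hσ a ((le_sup_left : K₁ ≤ K₁ ⊔ K₂) ha),
      h₂ σ fun a ha => hσ a ((le_sup_right : K₂ ≤ K₁ ⊔ K₂) ha)]

/-- **(AC2)** every class is fixed by `Gal(ℚ̄ / K₀)` for a number field `K₀`. -/
theorem h5_stab (x : JZero N) :
    ∃ K₀ : IntermediateField ℚ Qbar, FiniteDimensional ℚ K₀ ∧
      ∀ σ : GQ, (∀ a ∈ K₀, σ a = a) → σ • x = x := by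
  obtain ⟨D, rfl⟩ := Pic0.mk_surjective x
  obtain ⟨K₀, hK₀, h⟩ := h5_stab_divisor N (D : Divisor Qbar ↥(modularFunctionFieldBar N))
  refine ⟨K₀, hK₀, fun σ hσ => ?_⟩
  rw [galois_smul_pic0_def, SemilinearAut.pic0_smul_mk]
  exact congrArg Pic0.mk (Subtype.ext (h σ hσ))

/-- **(AC2)**, finitely many classes. -/
theorem h5_stab_fin {ι : Type*} [Finite ι] (x : ι → JZero N) :
    ∃ K₀ : IntermediateField ℚ Qbar, FiniteDimensional ℚ K₀ ∧
      ∀ σ : GQ, (∀ a ∈ K₀, σ a = a) → ∀ i, σ • x i = x i := by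
  classical
  choose K hK h using fun i => h5_stab N (x i)
  have := Fintype.ofFinite ι
  refine ⟨⨆ i, K i, ?_, fun σ hσ i => h i σ fun a ha => hσ a ((le_iSup K i) ha)⟩
  have : ∀ i, FiniteDimensional ℚ (K i) := hK
  exact IntermediateField.finiteDimensional_iSup_of_finite

theorem h5_isAlgClosure_rat : IsAlgClosure ℚ (AlgebraicClosure ℚ) :=
  (inferInstance : @IsAlgClosure ℚ (AlgebraicClosure ℚ) _ _ (AlgebraicClosure.instAlgebra ℚ) _)

theorem h5_normal_rat : Normal ℚ (AlgebraicClosure ℚ) :=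
  haveI := h5_isAlgClosure_rat
  IsAlgClosure.normal ℚ Qbar

/-- Conjugates of automorphisms fixing a normal field fix it. -/
theorem h5_conj_fixes (K : IntermediateField ℚ Qbar) [Normal ℚ K] (σ h : GQ)
    (hσ : ∀ a ∈ K, σ a = a) : ∀ a ∈ K, (h⁻¹ * σ * h) a = a := by
  intro a ha
  have hha : h a ∈ K := by
    have h1 := AlgEquiv.restrictNormal_commutes h K ⟨a, ha⟩
    have h2 : h a = ((h.restrictNormal K ⟨a, ha⟩ : K) : Qbar) := h1.symm
    rw [h2]
    exact (h.restrictNormal K ⟨a, ha⟩).2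
  change h⁻¹ (σ (h a)) = a
  rw [hσ _ hha]
  exact h.symm_apply_apply a

/-- **(AC2)**, normal form: a NORMAL number field whose absolute Galois group fixes all the
Galois translates of finitely many classes. -/
theorem h5_stab_normal {ι : Type*} [Finite ι] (x : ι → JZero N) :
    ∃ K₁ : IntermediateField ℚ Qbar, FiniteDimensional ℚ K₁ ∧ Normal ℚ K₁ ∧
      ∀ σ : GQ, (∀ a ∈ K₁, σ a = a) → ∀ (h : GQ) (i : ι), σ • h • x i = h • x i := by
  obtain ⟨K₀, hK₀, h₀⟩ := h5_stab_fin N x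
  have hnQ : Normal ℚ Qbar := h5_normal_rat
  refine ⟨IntermediateField.normalClosure ℚ K₀ Qbar,
    normalClosure.is_finiteDimensional ℚ K₀ Qbar, normalClosure.normal ℚ K₀ Qbar, ?_⟩
  intro σ hσ h i
  have hn : Normal ℚ (IntermediateField.normalClosure ℚ K₀ Qbar) :=
    normalClosure.normal ℚ K₀ Qbar
  have h1 := h5_conj_fixes (IntermediateField.normalClosure ℚ K₀ Qbar) σ h hσ
  have h2 := h₀ (h⁻¹ * σ * h)
    (fun a ha => h1 a (IntermediateField.le_normalClosure K₀ ha)) i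
  calc σ • h • x i = h • ((h⁻¹ * σ * h) • x i) := by
        rw [← mul_smul, ← mul_smul]
        congr 1
        group
    _ = h • x i := by rw [h2]

end Fermat.Agent.S42x.Asm.H5
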