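import Mathlib

/-!
# W7 (S42 + S29), (ASM-CORE), abstract module part (helper15)

`T` a vector space over `𝔽_p = ZMod p` with a representation `r` of a group `G`, `κ` a field
over `𝔽_p`, `x : Fin n → T` independent, `w : Fin n → κ` non-zero.  In `M = κ ⊗ T` we consider the
vector `X = ∑ w_j ⊗ x_j` and the `κ`-span `W` of its `G`-orbit:

* `h15cVec_ne_zero`  : `X ≠ 0`;
* `h15cW_ne_bot`, `h15cW_stable`, `h15cW_finite` (finite orbits of the `x_j`);
* `h15cW_eigen`      : an endomorphism `E` of `T` commuting with `G`, with integer matrix `t` on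
                       the `x_j` and `t w = ā w`, acts on `W` as the scalar `ā`;
* `h15cW_quad`       : if `σ² - E σ + ℓ = 0` on `T` then `σ² - ā σ + ℓ = 0` on `W`;
* `h15cW_fix`        : an element fixing the orbits of the `x_j` pointwise is trivial on `W`.
-/

set_option autoImplicit false

open TensorProduct

noncomputable section

namespace Fermat.Agent.S42x.Asm.H15

variable {p : ℕ} [Fact p.Prime] (κ : Type) [Field κ] [Algebra (ZMod p) κ]
variable {T : Type} [AddCommGroup T] [Module (ZMod p) T] {G : Type} [Group G]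
variable (r : G →* Module.End (ZMod p) T) {n : ℕ} (x : Fin n → T) (w : Fin n → κ)

/-- The base change of the representation `r` to `κ`. -/
def h15cRho : G →* Module.End κ (κ ⊗[ZMod p] T) where
  toFun g := (r g).baseChange κ
  map_one' := by rw [map_one, LinearMap.baseChange_one]
  map_mul' g h := by rw [map_mul, LinearMap.baseChange_mul]

@[simp] theorem h15cRho_apply (g : G) : h15cRho κ r g = (r g).baseChange κ := rfl

variable {κ}

/-- The vector `∑ w_j ⊗ x_j`. -/
def h15cVec : κ ⊗[ZMod p] T := ∑ j, w j ⊗ₜ[ZMod p] x j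

/-- The span of the orbit of `∑ w_j ⊗ x_j`. -/
def h15cW : Submodule κ (κ ⊗[ZMod p] T) :=
  Submodule.span κ (Set.range fun g : G => h15cRho κ r g (h15cVec x w))

theorem h15c_baseChange_vec (E : Module.End (ZMod p) T) :
    E.baseChange κ (h15cVec x w) = h15cVec (p := p) (fun j => E (x j)) w := by
  rw [h15cVec, map_sum]
  exact Finset.sum_congr rfl fun j _ => LinearMap.baseChange_tmul _ _ _

theorem h15cVec_ne_zero (hx : LinearIndependent (ZMod p) x) (hw : ∃ j, w j ≠ 0) :
    h15cVec (p := p) x w ≠ 0 := by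
  have hli : LinearIndependent κ (fun j => (1 : κ) ⊗ₜ[ZMod p] x j) :=
    Module.Flat.linearIndependent_one_tmul (R := ZMod p) (S := κ) hx
  intro h0
  have h1 : ∑ j, w j • ((1 : κ) ⊗ₜ[ZMod p] x j) = 0 := by
    rw [← h0, h15cVec]
    refine Finset.sum_congr rfl fun j _ => ?_
    rw [TensorProduct.smul_tmul', smul_eq_mul, mul_one]
  obtain ⟨j, hj⟩ := hw
  exact hj (Fintype.linearIndependent_iff.mp hli w h1 j)

theorem h15c_vec_mem : h15cVec x w ∈ h15cW r x w := by
  refine Submodule.subset_span ⟨1, ?_⟩
  simp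

theorem h15cW_ne_bot (hx : LinearIndependent (ZMod p) x) (hw : ∃ j, w j ≠ 0) :
    h15cW r x w ≠ ⊥ := by
  intro h
  have := h15c_vec_mem r x w
  rw [h, Submodule.mem_bot] at this
  exact h15cVec_ne_zero x w hx hw this

theorem h15cW_stable (g : G) (y : κ ⊗[ZMod p] T) (hy : y ∈ h15cW r x w) :
    h15cRho κ r g y ∈ h15cW r x w := by
  induction hy using Submodule.span_induction with
  | mem y hy =>
    obtain ⟨h, rfl⟩ := hy
    refine Submodule.subset_span ⟨g * h, ?_⟩
    simp only [map_mul, Module.End.mul_apply]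
  | zero => rw [map_zero]; exact Submodule.zero_mem _
  | add a b _ _ ha hb => rw [map_add]; exact Submodule.add_mem _ ha hb
  | smul c a _ ha => rw [map_smul]; exact Submodule.smul_mem _ c ha

theorem h15cW_finite (hfin : ∀ j, (Set.range fun g : G => r g (x j)).Finite) :
    FiniteDimensional κ (h15cW r x w) := by
  have hS : (Set.range fun g : G => h15cRho κ r g (h15cVec x w)).Finite := by
    have hpi : {f : Fin n → T | ∀ j, f j ∈ Set.range fun g : G => r g (x j)}.Finite :=
      Set.Finite.pi' fun j => hfin j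
    refine (hpi.image fun v : Fin n → T => h15cVec (p := p) v w).subset ?_
    rintro _ ⟨g, rfl⟩
    refine ⟨fun j => r g (x j), fun j => ⟨g, rfl⟩, ?_⟩
    simp only [h15cRho_apply]
    rw [h15c_baseChange_vec]
  exact FiniteDimensional.span_of_finite κ hS

theorem h15c_intCast_tmul (c : ℤ) (a : κ) (y : T) :
    a ⊗ₜ[ZMod p] (c • y) = ((c : κ) * a) ⊗ₜ[ZMod p] y := by
  have h1 : c • y = ((c : ZMod p)) • y := (Int.cast_smul_eq_zsmul (ZMod p) c y).symm
  rw [h1, TensorProduct.tmul_smul, TensorProduct.smul_tmul', Algebra.smul_def]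
  congr 1
  rw [map_intCast]

/-- An endomorphism commuting with `G`, given on the `x_j` by an integer matrix `t` with
`t w = ā w`, acts on `W` as the scalar `ā`. -/
theorem h15cW_eigen (E : Module.End (ZMod p) T) (t : Matrix (Fin n) (Fin n) ℤ) (a : κ)
    (hcomm : ∀ (g : G) (y : T), E (r g y) = r g (E y))
    (hE : ∀ j, E (x j) = ∑ i, t i j • x i)
    (ht : ∀ i, ∑ j, ((t i j : ℤ) : κ) * w j = a * w i)
    (y : κ ⊗[ZMod p] T) (hy : y ∈ h15cW r x w) : E.baseChange κ y = a • y := by
  have hX : E.baseChange κ (h15cVec x w) = a • h15cVec x w := by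
    rw [h15c_baseChange_vec]
    simp only [h15cVec, hE, TensorProduct.tmul_sum, h15c_intCast_tmul, Finset.smul_sum]
    rw [Finset.sum_comm]
    refine Finset.sum_congr rfl fun i _ => ?_
    rw [← TensorProduct.sum_tmul, ht i, TensorProduct.smul_tmul', smul_eq_mul]
  have hc : ∀ (g : G) (z : κ ⊗[ZMod p] T),
      E.baseChange κ (h15cRho κ r g z) = h15cRho κ r g (E.baseChange κ z) := by
    intro g z
    have : E * r g = r g * E := LinearMap.ext fun y => hcomm g y
    have h2 := congrArg (fun f : Module.End (ZMod p) T => f.baseChange κ) this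
    simp only [LinearMap.baseChange_mul] at h2
    exact congrArg (fun f : Module.End κ (κ ⊗[ZMod p] T) => f z) h2
  induction hy using Submodule.span_induction with
  | mem y hy =>
    obtain ⟨g, rfl⟩ := hy
    simp only
    rw [hc, hX, map_smul]
  | zero => rw [map_zero, smul_zero]
  | add u v _ _ hu hv => rw [map_add, hu, hv, smul_add]
  | smul c u _ hu => rw [map_smul, hu, smul_comm]

/-- The Eichler–Shimura relation on `W`. -/
theorem h15cW_quad (E : Module.End (ZMod p) T) (t : Matrix (Fin n) (Fin n) ℤ) (a : κ)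
    (hcomm : ∀ (g : G) (y : T), E (r g y) = r g (E y))
    (hE : ∀ j, E (x j) = ∑ i, t i j • x i)
    (ht : ∀ i, ∑ j, ((t i j : ℤ) : κ) * w j = a * w i)
    (σ : G) (ℓ : ℕ) (hσ : ∀ y : T, r σ (r σ y) - E (r σ y) + ℓ • y = 0)
    (y : κ ⊗[ZMod p] T) (hy : y ∈ h15cW r x w) :
    h15cRho κ r σ (h15cRho κ r σ y) - a • h15cRho κ r σ y + (ℓ : κ) • y = 0 := by
  have hrel : r σ * r σ - E * r σ + (ℓ : ZMod p) • (1 : Module.End (ZMod p) T) = 0 := by
    refine LinearMap.ext fun y => ?_
    have := hσ y
    simp only [LinearMap.add_apply, LinearMap.sub_apply, Module.End.mul_apply,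
      LinearMap.smul_apply, Module.End.one_apply, LinearMap.zero_apply]
    rw [Nat.cast_smul_eq_nsmul]
    exact this
  have h2 := congrArg (fun f : Module.End (ZMod p) T => f.baseChange κ) hrel
  simp only [LinearMap.baseChange_add, LinearMap.baseChange_sub, LinearMap.baseChange_mul,
    LinearMap.baseChange_smul, LinearMap.baseChange_one, LinearMap.baseChange_zero] at h2
  have h3 := congrArg (fun f : Module.End κ (κ ⊗[ZMod p] T) => f y) h2
  simp only [LinearMap.add_apply, LinearMap.sub_apply, Module.End.mul_apply,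
    LinearMap.smul_apply, Module.End.one_apply, LinearMap.zero_apply] at h3
  have h4 := h15cW_eigen r x w E t a hcomm hE ht _ (h15cW_stable r x w σ y hy)
  rw [h15cRho_apply] at h4 ⊢
  rw [h4] at h3
  have h5 : ((ℓ : ZMod p)) • y = (ℓ : κ) • y := by
    rw [← algebraMap_smul κ ((ℓ : ZMod p)) y, map_natCast]
  rw [h5] at h3
  exact h3

/-- An element of `G` fixing the orbits of the `x_j` pointwise acts trivially on `W`. -/
theorem h15cW_fix (g : G) (hg : ∀ (j : Fin n) (h : G), r g (r h (x j)) = r h (x j))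
    (y : κ ⊗[ZMod p] T) (hy : y ∈ h15cW r x w) : h15cRho κ r g y = y := by
  induction hy using Submodule.span_induction with
  | mem y hy =>
    obtain ⟨h, rfl⟩ := hy
    simp only [h15cRho_apply]
    rw [h15c_baseChange_vec, h15c_baseChange_vec]
    simp only [hg]
  | zero => rw [map_zero]
  | add u v _ _ hu hv => rw [map_add, hu, hv]
  | smul c u _ hu => rw [map_smul, hu]

/-- An element acting trivially on `T` acts trivially on `κ ⊗ T`. -/
theorem h15cRho_eq_one (g : G) (hg : ∀ y : T, r g y = y) : h15cRho κ r g = 1 := by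
  have : r g = 1 := LinearMap.ext hg
  rw [h15cRho_apply, this, LinearMap.baseChange_one]

end Fermat.Agent.S42x.Asm.H15
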