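import Mathlib
import Fermat.Agent.S42x.Asm.H15_CoreW

/-!
# W7 (AC3) [MOD], abstract form: from an abelian group with a group action to the module `W₀`

`J` an abelian group with an action of a group `G` by automorphisms, `T i : J →+ J` commuting
with `G`, `x_1, …, x_n` points of `J[p]`, independent modulo `p`, on which the `T i` act by
integer matrices `t i`, and `w ≠ 0` a common eigenvector of the (reductions of the) transposed
matrices with eigenvalues `abar i` in a field `κ` of characteristic `p`.  Then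
`M := κ ⊗[𝔽_p] J[p]` carries a representation `ρ` of `G` and a nonzero finite-dimensional
`G`-stable subspace `W₀` on which

* every `σ` fixing the `G`-translates of the `x_j` acts trivially;
* every `σ` with `σ² - T i σ + c = 0` on `J[p]` satisfies `ρ σ + c ρ σ⁻¹ = abar i` on `W₀`.

The module-theoretic core is helper15's `H15_CoreW`; this file supplies the passage
`J ↦ J[p]` (as a `ZMod p`-module with `G`-action) and the statement announced on the board.
-/

set_option autoImplicit false

open TensorProduct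

noncomputable section

namespace Fermat.Agent.S42x.Asm.H10

/-- The `p`-torsion subgroup of an abelian group. -/
def h10Tors (J : Type*) [AddCommGroup J] (p : ℕ) : AddSubgroup J where
  carrier := {z | p • z = 0}
  zero_mem' := smul_zero p
  add_mem' := by
    intro a b ha hb
    change p • a = 0 at ha
    change p • b = 0 at hb
    change p • (a + b) = 0
    rw [smul_add, ha, hb, add_zero]
  neg_mem' := by
    intro a ha
    change p • a = 0 at ha
    change p • (-a) = 0
    rw [smul_neg, ha, neg_zero]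

theorem h10_mem_tors {J : Type*} [AddCommGroup J] {p : ℕ} {z : J} :
    z ∈ h10Tors J p ↔ p • z = 0 := Iff.rfl

/-- The `ZMod p`-module structure of the `p`-torsion. -/
instance h10TorsModule (J : Type*) [AddCommGroup J] (p : ℕ) :
    Module (ZMod p) (h10Tors J p) :=
  AddCommGroup.zmodModule (fun z => Subtype.ext (by
    rw [AddSubgroup.coe_nsmul]
    exact z.2))

/-- An additive endomorphism restricted to the `p`-torsion, as a `ZMod p`-linear map. -/
def h10TorsMap {J : Type*} [AddCommGroup J] (p : ℕ) (f : J →+ J) :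
    Module.End (ZMod p) (h10Tors J p) :=
  AddMonoidHom.toZModLinearMap p
    ((f.comp (h10Tors J p).subtype).codRestrict (h10Tors J p) (fun z => by
      change p • f z.1 = 0
      rw [← map_nsmul, z.2, map_zero]))

@[simp] theorem h10_coe_torsMap {J : Type*} [AddCommGroup J] (p : ℕ) (f : J →+ J)
    (z : h10Tors J p) : ((h10TorsMap p f z : h10Tors J p) : J) = f z := rfl

/-- The action of `G` on the `p`-torsion. -/
def h10TorsAct (G : Type*) (J : Type*) [Group G] [AddCommGroup J] [DistribMulAction G J]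
    (p : ℕ) : G →* Module.End (ZMod p) (h10Tors J p) where
  toFun σ := h10TorsMap p (DistribSMul.toAddMonoidHom J σ)
  map_one' := by
    refine LinearMap.ext fun z => Subtype.ext ?_
    simp
  map_mul' σ τ := by
    refine LinearMap.ext fun z => Subtype.ext ?_
    simp [mul_smul]

@[simp] theorem h10_coe_torsAct {G J : Type*} [Group G] [AddCommGroup J] [DistribMulAction G J]
    (p : ℕ) (σ : G) (z : h10Tors J p) :
    ((h10TorsAct G J p σ z : h10Tors J p) : J) = σ • (z : J) := rfl

/-- `ZMod p`-scalars act on the `p`-torsion through their values. -/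
theorem h10_coe_zmod_smul {J : Type*} [AddCommGroup J] (p : ℕ) [NeZero p] (a : ZMod p)
    (z : h10Tors J p) : ((a • z : h10Tors J p) : J) = a.val • (z : J) := by
  conv_lhs => rw [← ZMod.natCast_zmod_val a, Nat.cast_smul_eq_nsmul]
  rw [AddSubgroup.coe_nsmul]

theorem h10_coe_intCast_smul {J : Type*} [AddCommGroup J] (p : ℕ) (c : ℤ)
    (z : h10Tors J p) : (((c : ZMod p) • z : h10Tors J p) : J) = c • (z : J) := by
  rw [Int.cast_smul_eq_zsmul, AddSubgroup.coe_zsmul]

/-- Independence modulo `p` in `J` is linear independence over `ZMod p` in `J[p]`. -/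
theorem h10_linearIndependent_tors {J : Type*} [AddCommGroup J] (p : ℕ) [Fact p.Prime] {n : ℕ}
    (x : Fin n → J) (hx : ∀ j, p • x j = 0)
    (hind : ∀ c : Fin n → ℤ, ∑ j, c j • x j = 0 → ∀ j, (p : ℤ) ∣ c j) :
    LinearIndependent (ZMod p) (fun j => (⟨x j, hx j⟩ : h10Tors J p)) := by
  have : NeZero p := ⟨(Fact.out : p.Prime).ne_zero⟩
  rw [Fintype.linearIndependent_iff]
  intro g hg j
  have h1 : ∑ j, (((g j).val : ℕ) : ℤ) • x j = 0 := by
    have h2 := congrArg (fun z : h10Tors J p => (z : J)) hg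
    simp only [AddSubgroup.coe_zero] at h2
    rw [← h2, AddSubgroup.val_finsetSum]
    refine Finset.sum_congr rfl fun j _ => ?_
    rw [h10_coe_zmod_smul, natCast_zsmul]
  have h3 := hind _ h1 j
  have h4 : p ∣ (g j).val := Int.natCast_dvd_natCast.1 h3
  have h5 : (g j).val = 0 := Nat.eq_zero_of_dvd_of_lt h4 (ZMod.val_lt (g j))
  exact (ZMod.val_eq_zero (g j)).1 h5

/-- **(AC3) [MOD]**, abstract form, for a group in `Type`. -/
theorem h10_mod_core_aux {G : Type} [Group G] {J : Type} [AddCommGroup J] [DistribMulAction G J]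
    (p : ℕ) [Fact p.Prime] {κ : Type} [Field κ] [CharP κ p]
    {ι : Type*} (T : ι → (J →+ J)) (hTG : ∀ i (σ : G) (z : J), T i (σ • z) = σ • T i z)
    {n : ℕ} (x : Fin n → J) (hx : ∀ j, p • x j = 0)
    (hind : ∀ c : Fin n → ℤ, ∑ j, c j • x j = 0 → ∀ j, (p : ℤ) ∣ c j)
    (w : Fin n → κ) (hw : ∃ j, w j ≠ 0) (t : ι → Matrix (Fin n) (Fin n) ℤ) (abar : ι → κ)
    (hT : ∀ i j, T i (x j) = ∑ k, t i k j • x k)
    (heig : ∀ i k, ∑ j, ((t i k j : ℤ) : κ) * w j = abar i * w k)
    (hfin : ∀ j, (Set.range fun σ : G => σ • x j).Finite) :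
    ∃ (M : Type) (_ : AddCommGroup M) (_ : Module κ M) (ρ : G →* Module.End κ M)
      (W₀ : Submodule κ M),
      FiniteDimensional κ W₀ ∧ W₀ ≠ ⊥ ∧ (∀ g, ∀ y ∈ W₀, ρ g y ∈ W₀) ∧
      (∀ σ : G, (∀ j (τ : G), σ • τ • x j = τ • x j) → ∀ y ∈ W₀, ρ σ y = y) ∧
      (∀ (i : ι) (σ : G) (c : ℤ),
        (∀ z : J, p • z = 0 → σ • σ • z - T i (σ • z) + c • z = 0) →
        ∀ y ∈ W₀, ρ σ y + (c : κ) • ρ σ⁻¹ y = abar i • y) := by
  classical
  let _ : Algebra (ZMod p) κ := ZMod.algebra κ p
  let r : G →* Module.End (ZMod p) (h10Tors J p) := h10TorsAct G J p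
  let x' : Fin n → h10Tors J p := fun j => ⟨x j, hx j⟩
  have hli : LinearIndependent (ZMod p) x' := h10_linearIndependent_tors p x hx hind
  have hfin' : ∀ j, (Set.range fun g : G => r g (x' j)).Finite := by
    intro j
    refine ((hfin j).preimage (Subtype.val_injective.injOn (s := _))).subset ?_
    rintro _ ⟨g, rfl⟩
    exact ⟨g, rfl⟩
  have hstab := H15.h15cW_stable (κ := κ) r x' w
  refine ⟨κ ⊗[ZMod p] (h10Tors J p), inferInstance, inferInstance, H15.h15cRho κ r,
    H15.h15cW r x' w, H15.h15cW_finite r x' w hfin', H15.h15cW_ne_bot r x' w hli hw,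
    fun g y hy => hstab g y hy, ?_, ?_⟩
  · intro σ hσ y hy
    exact H15.h15cW_fix r x' w σ (fun j h => Subtype.ext (hσ j h)) y hy
  · intro i σ c hrel y hy
    let E : Module.End (ZMod p) (h10Tors J p) := h10TorsMap p (T i)
    have hcomm : ∀ (g : G) (z : h10Tors J p), E (r g z) = r g (E z) := by
      intro g z
      exact Subtype.ext (hTG i g z)
    have hE : ∀ j, E (x' j) = ∑ k, t i k j • x' k := by
      intro j
      refine Subtype.ext ?_
      rw [AddSubgroup.val_finsetSum]
      simp only [AddSubgroup.coe_zsmul]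
      exact hT i j
    have heigen := H15.h15cW_eigen (κ := κ) r x' w E (t i) (abar i) hcomm hE (heig i)
    -- the relation on `J[p]`, as an identity of endomorphisms
    have hrelE : r σ * r σ - E * r σ + (c : ZMod p) • (1 : Module.End (ZMod p) (h10Tors J p))
        = 0 := by
      refine LinearMap.ext fun z => Subtype.ext ?_
      simp only [LinearMap.add_apply, LinearMap.sub_apply, Module.End.mul_apply,
        LinearMap.smul_apply, Module.End.one_apply, LinearMap.zero_apply,
        AddSubgroup.coe_add, AddSubgroup.coe_sub, AddSubgroup.coe_zero]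
      rw [h10_coe_intCast_smul]
      exact hrel z z.2
    have h2 := congrArg (fun f : Module.End (ZMod p) (h10Tors J p) => f.baseChange κ) hrelE
    simp only [LinearMap.baseChange_add, LinearMap.baseChange_sub, LinearMap.baseChange_mul,
      LinearMap.baseChange_smul, LinearMap.baseChange_one, LinearMap.baseChange_zero] at h2
    have h3 := congrArg
      (fun f : Module.End κ (κ ⊗[ZMod p] (h10Tors J p)) => f (H15.h15cRho κ r σ⁻¹ y)) h2
    simp only [LinearMap.add_apply, LinearMap.sub_apply, Module.End.mul_apply,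
      LinearMap.smul_apply, Module.End.one_apply, LinearMap.zero_apply] at h3
    have h4 : (r σ).baseChange κ (H15.h15cRho κ r σ⁻¹ y) = y := by
      have : H15.h15cRho κ r σ * H15.h15cRho κ r σ⁻¹ = 1 := by
        rw [← map_mul, mul_inv_cancel, map_one]
      have := congrArg (fun f : Module.End κ (κ ⊗[ZMod p] (h10Tors J p)) => f y) this
      simpa using this
    rw [h4, heigen y hy] at h3
    have h5 : ((c : ZMod p)) • (H15.h15cRho κ r σ⁻¹ y) = (c : κ) • (H15.h15cRho κ r σ⁻¹ y) := by
      rw [← algebraMap_smul κ ((c : ZMod p)) (H15.h15cRho κ r σ⁻¹ y), map_intCast]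
    rw [h5] at h3
    have h6 : H15.h15cRho κ r σ y = (r σ).baseChange κ y := rfl
    rw [h6]
    have h7 := sub_eq_zero.1 (by rw [← h3]; abel :
      (r σ).baseChange κ y + (c : κ) • (H15.h15cRho κ r σ⁻¹ y) - abar i • y = 0)
    exact h7

/-- **(AC3) [MOD]**, abstract form (statement of board post #1202). -/
theorem h10_mod_core {G : Type*} [Group G] {J : Type} [AddCommGroup J] [DistribMulAction G J]
    (p : ℕ) [Fact p.Prime] {κ : Type} [Field κ] [CharP κ p]
    {ι : Type*} (T : ι → (J →+ J)) (hTG : ∀ i (σ : G) (z : J), T i (σ • z) = σ • T i z)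
    {n : ℕ} (x : Fin n → J) (hx : ∀ j, p • x j = 0)
    (hind : ∀ c : Fin n → ℤ, ∑ j, c j • x j = 0 → ∀ j, (p : ℤ) ∣ c j)
    (w : Fin n → κ) (hw : ∃ j, w j ≠ 0) (t : ι → Matrix (Fin n) (Fin n) ℤ) (abar : ι → κ)
    (hT : ∀ i j, T i (x j) = ∑ k, t i k j • x k)
    (heig : ∀ i k, ∑ j, ((t i k j : ℤ) : κ) * w j = abar i * w k)
    (hfin : ∀ j, (Set.range fun σ : G => σ • x j).Finite) :
    ∃ (M : Type) (_ : AddCommGroup M) (_ : Module κ M) (ρ : G →* Module.End κ M)
      (W₀ : Submodule κ M),
      FiniteDimensional κ W₀ ∧ W₀ ≠ ⊥ ∧ (∀ g, ∀ y ∈ W₀, ρ g y ∈ W₀) ∧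
      (∀ σ : G, (∀ j (τ : G), σ • τ • x j = τ • x j) → ∀ y ∈ W₀, ρ σ y = y) ∧
      (∀ (i : ι) (σ : G) (c : ℤ),
        (∀ z : J, p • z = 0 → σ • σ • z - T i (σ • z) + c • z = 0) →
        ∀ y ∈ W₀, ρ σ y + (c : κ) • ρ σ⁻¹ y = abar i • y) := by
  classical
  let φ : G →* (AddMonoid.End J)ˣ :=
    MonoidHom.toHomUnits (DistribMulAction.toAddMonoidEnd G J)
  have hφ : ∀ (σ : G) (z : J), (φ.rangeRestrict σ) • z = σ • z := fun σ z => rfl
  have hsurj : ∀ σ' : φ.range, ∃ σ : G, φ.rangeRestrict σ = σ' := φ.rangeRestrict_surjective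
  obtain ⟨M, i1, i2, ρ', W₀, hfd, hne, hstab, hfix, hES⟩ :=
    h10_mod_core_aux (G := φ.range) p T (fun i σ' z => by
      obtain ⟨σ, rfl⟩ := hsurj σ'
      rw [hφ, hφ]
      exact hTG i σ z) x hx hind w hw t abar hT heig (fun j => by
      refine (hfin j).subset ?_
      rintro _ ⟨σ', rfl⟩
      obtain ⟨σ, rfl⟩ := hsurj σ'
      exact ⟨σ, (hφ σ (x j)).symm⟩)
  refine ⟨M, i1, i2, ρ'.comp φ.rangeRestrict, W₀, hfd, hne, fun g y hy => hstab _ y hy, ?_, ?_⟩
  · intro σ hσ y hy
    refine hfix (φ.rangeRestrict σ) (fun j τ' => ?_) y hy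
    obtain ⟨τ, rfl⟩ := hsurj τ'
    rw [hφ, hφ]
    exact hσ j τ
  · intro i σ c hrel y hy
    have h1 := hES i (φ.rangeRestrict σ) c (fun z hz => by
      rw [hφ, hφ]
      exact hrel z hz) y hy
    rw [← map_inv] at h1
    exact h1

end Fermat.Agent.S42x.Asm.H10
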