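import Mathlib

/-!
# W7 (AC3a): a nonzero combination of independent vectors stays nonzero after base change

For fields `k ⊆ κ`, a `k`-module `V`, a `k`-linearly independent family `x : Fin n → V` and
coefficients `w : Fin n → κ`, not all zero, the vector `∑ j, w j ⊗ₜ x j` of `κ ⊗[k] V` is nonzero.
Mathlib only.
-/

namespace Fermat.Agent.S42x.Asm.H10

open TensorProduct

/-- A coordinate functional for a linearly independent family over a field. -/
theorem h10_exists_coord {k V : Type*} [Field k] [AddCommGroup V] [Module k V] {ι : Type*}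
    [Fintype ι] [DecidableEq ι] (x : ι → V) (hx : LinearIndependent k x) (j₀ : ι) :
    ∃ φ : V →ₗ[k] k, ∀ j, φ (x j) = if j = j₀ then 1 else 0 := by
  classical
  have hker : LinearMap.ker (Fintype.linearCombination k x) = ⊥ := by
    rw [LinearMap.ker_eq_bot]
    exact linearIndependent_iff_injective_fintypeLinearCombination.1 hx
  obtain ⟨g, hg⟩ := LinearMap.exists_leftInverse_of_injective _ hker
  refine ⟨(LinearMap.proj j₀) ∘ₗ g, fun j => ?_⟩
  have h1 : Fintype.linearCombination k x (Pi.single j 1) = x j := by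
    simp [Fintype.linearCombination_apply_single]
  have h2 : g (x j) = Pi.single j 1 := by
    have := LinearMap.congr_fun hg (Pi.single j 1)
    simpa [h1] using this
  simp only [LinearMap.coe_comp, Function.comp_apply, h2, LinearMap.proj_apply]
  by_cases h : j = j₀
  · subst h
    simp
  · simp [h]

/-- **(AC3a)** -/
theorem h10_sum_tmul_ne_zero {k κ V : Type*} [Field k] [Field κ] [Algebra k κ] [AddCommGroup V]
    [Module k V] {n : ℕ} (x : Fin n → V) (hx : LinearIndependent k x) (w : Fin n → κ)
    (hw : ∃ j, w j ≠ 0) : ∑ j, w j ⊗ₜ[k] x j ≠ (0 : κ ⊗[k] V) := by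
  classical
  obtain ⟨j₀, hj₀⟩ := hw
  obtain ⟨φ, hφ⟩ := h10_exists_coord x hx j₀
  intro h0
  have h1 : ((TensorProduct.rid k κ).toLinearMap ∘ₗ LinearMap.lTensor κ φ)
      (∑ j, w j ⊗ₜ[k] x j) = w j₀ := by
    rw [map_sum]
    simp only [LinearMap.coe_comp, LinearEquiv.coe_coe, Function.comp_apply,
      LinearMap.lTensor_tmul, TensorProduct.rid_tmul, hφ]
    simp
  rw [h0, map_zero] at h1
  exact hj₀ h1.symm

end Fermat.Agent.S42x.Asm.H10
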