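import Fermat.Agent.S42x.Asm.Defs
import Fermat.Statements.S29

/-!
# W7 (ASM-S29): the frozen statement S29 from `Asm.StCore`

* `h10_trivialRep k` : the trivial two-dimensional residual representation (level `N = 0`, where
  the statement is vacuous);
* `h10_ker_isMaximal` : the kernel of `φ : Z̄ →+* k`, `k` a field of characteristic `p`, is a
  maximal ideal containing `p`;
* `h10_s29_of_core` : S29 for `(N, g, p, φ)`, `N ≠ 0`, from `StCore N p g (ker φ)`;
* `h10_s29_of_forall_core` : the frozen statement S29 from `StCore` at all levels `N ≥ 1`.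
-/

set_option autoImplicit false
set_option linter.unusedSectionVars false
set_option linter.unusedVariables false
set_option linter.style.haveILetI false
set_option synthInstance.maxHeartbeats 400000
set_option maxHeartbeats 1000000

open Polynomial

noncomputable section

namespace Fermat.Agent.S42x.Asm.H10

open Fermat.Agent.S42x.Asm

/-- The trivial two-dimensional residual representation. -/
def h10_trivialRep (k : Type) [Field k] : ResidualGaloisRep k where
  V := Fin 2 → k
  finrank_eq := by rw [Module.finrank_fin_fun]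
  ρ := 1
  factorsThroughFiniteLevel := ⟨⊥, inferInstance, fun _ _ => rfl⟩

theorem h10_trivialRep_isUnramifiedAt (k : Type) [Field k] (q : ℕ) :
    (h10_trivialRep k).IsUnramifiedAt q := fun _ _ _ _ => rfl

/-- At level `0` every residual representation is attached to every form (no prime is prime to
the level). -/
theorem h10_isAttachedTo_zero {k : Type} [Field k] (ρ : ResidualGaloisRep k)
    (g : CuspForm (CongruenceSubgroup.Gamma0 0) 2) (φ : integralClosure ℤ ℂ →+* k) :
    ρ.IsAttachedTo g φ := fun ℓ _ hℓ => absurd (dvd_zero ℓ) hℓ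

/-- The kernel of a ring homomorphism from `Z̄` to a field of characteristic `p` contains `p`. -/
theorem h10_natCast_mem_ker {p : ℕ} {k : Type} [Field k] [CharP k p]
    (φ : integralClosure ℤ ℂ →+* k) : ((p : ℕ) : Zbar) ∈ RingHom.ker φ := by
  rw [RingHom.mem_ker, map_natCast]
  exact CharP.cast_eq_zero k p

/-- The kernel of a ring homomorphism from `Z̄` to a field of characteristic `p` is maximal. -/
theorem h10_ker_isMaximal {p : ℕ} (hp : p.Prime) {k : Type} [Field k] [CharP k p]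
    (φ : integralClosure ℤ ℂ →+* k) : (RingHom.ker φ).IsMaximal := by
  haveI hprime : (RingHom.ker φ).IsPrime := RingHom.ker_isPrime φ
  haveI : Algebra.IsIntegral ℤ Zbar := ⟨fun x => integralClosure.isIntegral x⟩
  apply Ideal.isMaximal_of_isIntegral_of_isMaximal_comap (R := ℤ)
  haveI : ((RingHom.ker φ).comap (algebraMap ℤ Zbar)).IsPrime := Ideal.comap_isPrime _ _
  apply Ideal.IsPrime.isMaximal inferInstance
  intro hbot
  have h1 : ((p : ℤ)) ∈ (RingHom.ker φ).comap (algebraMap ℤ Zbar) := by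
    rw [Ideal.mem_comap, map_natCast]
    exact h10_natCast_mem_ker φ
  rw [hbot, Ideal.mem_bot] at h1
  exact hp.ne_zero (by exact_mod_cast h1)

section BaseChange

variable {k k' : Type} [Field k] [Field k']

/-- The characteristic polynomial of a base change. -/
theorem h10_charpoly_baseChange [Algebra k k'] (ρ : ResidualGaloisRep k)
    (σ : AlgebraicClosure ℚ ≃ₐ[ℚ] AlgebraicClosure ℚ) :
    LinearMap.charpoly ((ρ.baseChange k').ρ σ) =
      (LinearMap.charpoly (ρ.ρ σ)).map (algebraMap k k') :=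
  LinearMap.charpoly_baseChange (A := k') (f := ρ.ρ σ)

/-- The base change of a trivial value is trivial. -/
theorem h10_baseChange_eq_one [Algebra k k'] (ρ : ResidualGaloisRep k)
    (σ : AlgebraicClosure ℚ ≃ₐ[ℚ] AlgebraicClosure ℚ) (h : ρ.ρ σ = 1) :
    (ρ.baseChange k').ρ σ = 1 := by
  show (ρ.ρ σ).baseChange k' = 1
  rw [h]
  exact LinearMap.baseChange_one (R := k) (A := k') (M := ρ.V)

theorem h10_charpoly_baseChangeAlong (ψ : k →+* k') (ρ : ResidualGaloisRep k)
    (σ : AlgebraicClosure ℚ ≃ₐ[ℚ] AlgebraicClosure ℚ) :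
    LinearMap.charpoly ((ρ.baseChangeAlong ψ).ρ σ) = (LinearMap.charpoly (ρ.ρ σ)).map ψ := by
  letI : Algebra k k' := ψ.toAlgebra
  exact h10_charpoly_baseChange (k' := k') ρ σ

theorem h10_baseChangeAlong_eq_one (ψ : k →+* k') (ρ : ResidualGaloisRep k)
    (σ : AlgebraicClosure ℚ ≃ₐ[ℚ] AlgebraicClosure ℚ) (h : ρ.ρ σ = 1) :
    (ρ.baseChangeAlong ψ).ρ σ = 1 := by
  letI : Algebra k k' := ψ.toAlgebra
  exact h10_baseChange_eq_one (k' := k') ρ σ h

end BaseChange

section Core

variable {N : ℕ} {g : CuspForm (CongruenceSubgroup.Gamma0 N) 2} {p : ℕ} {k : Type} [Field k]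
  (φ : integralClosure ℤ ℂ →+* k) [hmax : (RingHom.ker φ).IsMaximal]

/-- **(ASM-S29)**: S29 for `(N, g, p, φ)` from `StCore N p g (ker φ)`. -/
theorem h10_s29_of_core (hcore : StCore N p g (RingHom.ker φ)) :
    ∃ ρ : ResidualGaloisRep k, ρ.IsAttachedTo g φ ∧
      ∀ ℓ : ℕ, ℓ.Prime → ¬ ℓ ∣ N * p → ρ.IsUnramifiedAt ℓ := by
  letI : Field (Zbar ⧸ RingHom.ker φ) := Ideal.Quotient.field (RingHom.ker φ)
  obtain ⟨ρ₀, hatt, hunr⟩ := hcore
  refine ⟨ρ₀.baseChangeAlong (RingHom.kerLift φ), ?_, ?_⟩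
  · intro ℓ hℓ hℓN hℓk A hA σ hσ
    have hℓκ : ((ℓ : ℕ) : Zbar ⧸ RingHom.ker φ) ≠ 0 := by
      intro h0
      apply hℓk
      have := congrArg (RingHom.kerLift φ) h0
      rwa [map_natCast, map_zero] at this
    obtain ⟨a, ha, hch⟩ := hatt ℓ hℓ hℓN hℓκ A hA σ hσ
    refine ⟨a, ha, ?_⟩
    rw [h10_charpoly_baseChangeAlong, hch, Polynomial.map_add, Polynomial.map_sub,
      Polynomial.map_mul, Polynomial.map_pow, Polynomial.map_X, Polynomial.map_C,
      Polynomial.map_C, map_natCast]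
    rfl
  · intro ℓ hℓ hℓNp A hA σ hσ
    exact h10_baseChangeAlong_eq_one _ ρ₀ σ (hunr ℓ hℓ hℓNp A hA σ hσ)

end Core

/-- **(ASM-S29)**: the frozen statement S29 from `StCore` at all levels `N ≥ 1`. -/
theorem h10_s29_of_forall_core
    (hcore : ∀ (N : ℕ), N ≠ 0 → ∀ (g : CuspForm (CongruenceSubgroup.Gamma0 N) 2),
      g.IsNormalizedEigenform → ∀ (p : ℕ), p.Prime → ∀ (𝔪 : Ideal Zbar) [𝔪.IsMaximal],
        ((p : ℕ) : Zbar) ∈ 𝔪 → StCore N p g 𝔪)
    {N : ℕ} {g : CuspForm (CongruenceSubgroup.Gamma0 N) 2} (hg : g.IsNormalizedEigenform)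
    {p : ℕ} (hp : p.Prime) {k : Type} [Field k] [CharP k p]
    (φ : integralClosure ℤ ℂ →+* k) :
    ∃ ρ : ResidualGaloisRep k, ρ.IsAttachedTo g φ ∧
      ∀ ℓ : ℕ, ℓ.Prime → ¬ ℓ ∣ N * p → ρ.IsUnramifiedAt ℓ := by
  by_cases hN : N = 0
  · subst hN
    exact ⟨h10_trivialRep k, h10_isAttachedTo_zero _ g φ,
      fun ℓ _ _ => h10_trivialRep_isUnramifiedAt k ℓ⟩
  · haveI := h10_ker_isMaximal hp φ
    exact h10_s29_of_core φ (hcore N hN g hg p hp (RingHom.ker φ) (h10_natCast_mem_ker φ))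

end Fermat.Agent.S42x.Asm.H10
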