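import Fermat.Agent.S42x.Asm.Defs
import Fermat.Statements.S42

/-!
# W7 (ASM-S42): the frozen statement S42 from `Asm.StCore` and `Asm.StFrey`

* `h10_trace_det_of_charpoly` : trace and determinant of an endomorphism of a two-dimensional
  space from its characteristic polynomial `X ^ 2 - a X + d`;
* `h10_charP_quotient` : `Z̄ ⧸ 𝔪` has characteristic `p` when `p ∈ 𝔪`;
* `h10_exists_galois_level` : two finite levels are contained in a finite Galois level;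
* `h10_s42_of_core` : `P.EigenformResidualAttachmentAt M` from `StCore M P.p g 𝔪` (for all `g`,
  `𝔪`) and `StFrey P`;
* `h10_s42_of_forall_core` : the frozen statement S42.
-/

set_option autoImplicit false
set_option linter.unusedSectionVars false
set_option linter.unusedVariables false
set_option linter.style.haveILetI false
set_option synthInstance.maxHeartbeats 400000
set_option maxHeartbeats 1000000

open Polynomial

noncomputable section

namespace Fermat.Agent.S42x.Asm.H10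

open Fermat.Agent.S42x.Asm

local notation "Qbar" => AlgebraicClosure ℚ

section Linear

variable {K V : Type*} [Field K] [AddCommGroup V] [Module K V]

/-- Trace and determinant from the characteristic polynomial, in dimension two. -/
theorem h10_trace_det_of_charpoly [Module.Finite K V] (hV : Module.finrank K V = 2)
    (f : V →ₗ[K] V) (a d : K)
    (h : LinearMap.charpoly f = X ^ 2 - C a * X + C d) :
    LinearMap.trace K V f = a ∧ LinearMap.det f = d := by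
  have hc0 : (X ^ 2 - C a * X + C d : K[X]).coeff 0 = d := by
    simp [coeff_X]
  have hc1 : (X ^ 2 - C a * X + C d : K[X]).coeff 1 = -a := by
    simp [coeff_X, coeff_C]
  constructor
  · have b := Module.Free.chooseBasis K V
    have hcard : Fintype.card (Module.Free.ChooseBasisIndex K V) = 2 := by
      rw [← Module.finrank_eq_card_chooseBasisIndex, hV]
    haveI : Nonempty (Module.Free.ChooseBasisIndex K V) := by
      rw [← Fintype.card_pos_iff, hcard]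
      norm_num
    rw [LinearMap.trace_eq_matrix_trace K (Module.Free.chooseBasis K V) f,
      Matrix.trace_eq_neg_charpoly_coeff, LinearMap.charpoly_toMatrix, hcard, h]
    show -((X ^ 2 - C a * X + C d : K[X]).coeff 1) = a
    rw [hc1, neg_neg]
  · rw [LinearMap.det_eq_sign_charpoly_coeff, hV, h, hc0]
    norm_num

end Linear

section Quot

variable (𝔪 : Ideal Zbar) [h𝔪 : 𝔪.IsMaximal]

/-- `Z̄ ⧸ 𝔪` has characteristic `p` when `p ∈ 𝔪`. -/
theorem h10_charP_quotient {p : ℕ} (hp : p.Prime) (hpm : ((p : ℕ) : Zbar) ∈ 𝔪) :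
    letI : Field (Zbar ⧸ 𝔪) := Ideal.Quotient.field 𝔪
    CharP (Zbar ⧸ 𝔪) p := by
  letI : Field (Zbar ⧸ 𝔪) := Ideal.Quotient.field 𝔪
  rw [CharP.charP_iff_prime_eq_zero hp]
  have h := Ideal.Quotient.eq_zero_iff_mem.mpr hpm
  rwa [map_natCast] at h

end Quot

section Level

/-- Two finite levels are contained in a finite Galois level. -/
theorem h10_exists_galois_level (L₁ L₂ : IntermediateField ℚ Qbar)
    [FiniteDimensional ℚ L₁] [FiniteDimensional ℚ L₂] :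
    ∃ L : IntermediateField ℚ Qbar, FiniteDimensional ℚ L ∧ IsGalois ℚ L ∧ L₁ ≤ L ∧ L₂ ≤ L := by
  haveI : Algebra.IsAlgebraic ℚ Qbar := AlgebraicClosure.isAlgebraic ℚ
  haveI : Normal ℚ Qbar := by
    haveI : IsAlgClosure ℚ Qbar := AlgebraicClosure.instIsAlgClosure ℚ
    exact IsAlgClosure.normal ℚ Qbar
  haveI : FiniteDimensional ℚ ↥(L₁ ⊔ L₂) := IntermediateField.finiteDimensional_sup L₁ L₂
  refine ⟨IntermediateField.normalClosure ℚ ↥(L₁ ⊔ L₂) Qbar, ?_, ?_, ?_, ?_⟩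
  · exact normalClosure.is_finiteDimensional ℚ ↥(L₁ ⊔ L₂) Qbar
  · haveI : Normal ℚ ↥(IntermediateField.normalClosure ℚ ↥(L₁ ⊔ L₂) Qbar) :=
      normalClosure.normal ℚ ↥(L₁ ⊔ L₂) Qbar
    exact ⟨⟩
  · exact le_sup_left.trans (IntermediateField.le_normalClosure (L₁ ⊔ L₂))
  · exact le_sup_right.trans (IntermediateField.le_normalClosure (L₁ ⊔ L₂))

/-- An automorphism in the kernel of the restriction to a Galois level fixes the level. -/
theorem h10_fix_of_mem_ker (L : IntermediateField ℚ Qbar) [IsGalois ℚ L]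
    (σ : Qbar ≃ₐ[ℚ] Qbar)
    (hσ : σ ∈ (AlgEquiv.restrictNormalHom (F := ℚ) (K₁ := Qbar) ↥L).ker) :
    ∀ x ∈ L, σ x = x := by
  intro x hx
  rw [MonoidHom.mem_ker] at hσ
  have h1 := AlgEquiv.restrictNormal_commutes σ ↥L ⟨x, hx⟩
  have h2 : σ.restrictNormal ↥L = 1 := hσ
  rw [h2] at h1
  exact h1.symm

end Level

section Top

/-- **(ASM-S42)** at one level, form and maximal ideal. -/
theorem h10_s42_of_core (P : FreyPackage) (hfrey : StFrey P) (M : ℕ)
    (g : CuspForm (CongruenceSubgroup.Gamma0 M) 2)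
    (𝔪 : Ideal (integralClosure ℤ ℂ)) [h𝔪 : 𝔪.IsMaximal]
    (hp : ((P.p : ℕ) : integralClosure ℤ ℂ) ∈ 𝔪)
    (hcore : StCore M P.p g 𝔪) :
    ∃ (K : Type) (_ : Field K) (_ : Algebra (ZMod P.p) K)
        (V : Type) (_ : AddCommGroup V) (_ : Module K V)
        (ρ : Representation K (AlgebraicClosure ℚ ≃ₐ[ℚ] AlgebraicClosure ℚ) V)
        (ψ : integralClosure ℤ ℂ →+* K)
        (F : Type) (_ : Field F) (_ : NumberField F) (_ : IsGalois ℚ F)
        (_ : Algebra F (AlgebraicClosure ℚ)) (_ : IsScalarTower ℚ F (AlgebraicClosure ℚ)),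
        𝔪 ≤ RingHom.ker ψ ∧
        Module.finrank K V = 2 ∧
        (AlgEquiv.restrictNormalHom (F := ℚ) (K₁ := AlgebraicClosure ℚ) F).ker ≤
          (WeierstrassCurve.Affine.Point.galoisRepModuleEnd (S := ℚ) (K := AlgebraicClosure ℚ)
            P.freyCurve P.p).ker ⊓ ρ.ker ∧
        (∀ ℓ : ℕ, ℓ.Prime → ¬ ℓ ∣ M → ℓ ≠ P.p →
          ∀ A : ValuationSubring (AlgebraicClosure ℚ), A.LiesOverPrime ℓ →
            ∀ τ : AlgebraicClosure ℚ ≃ₐ[ℚ] AlgebraicClosure ℚ, A.IsFrobeniusAt τ ℓ →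
              ∃ a : integralClosure ℤ ℂ, (a : ℂ) = ModularFormClass.qCoeff g ℓ ∧
                LinearMap.trace K V (ρ τ) = ψ a) ∧
        (∀ ℓ : ℕ, ℓ.Prime → ¬ ℓ ∣ M → ℓ ≠ P.p →
          ∀ A : ValuationSubring (AlgebraicClosure ℚ), A.LiesOverPrime ℓ →
            ∀ τ : AlgebraicClosure ℚ ≃ₐ[ℚ] AlgebraicClosure ℚ, A.IsFrobeniusAt τ ℓ →
              LinearMap.det (ρ τ) = (ℓ : K)) := by
  letI : Field (Zbar ⧸ 𝔪) := Ideal.Quotient.field 𝔪
  haveI hchar : CharP (Zbar ⧸ 𝔪) P.p := h10_charP_quotient 𝔪 P.pp hp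
  obtain ⟨ρ₀, hatt, -⟩ := hcore
  obtain ⟨L₁, hL₁, hρ⟩ := ρ₀.factorsThroughFiniteLevel
  obtain ⟨L₂, hL₂, hE⟩ := hfrey
  haveI := hL₁
  haveI := hL₂
  obtain ⟨L, hLfin, hLgal, hL₁L, hL₂L⟩ := h10_exists_galois_level L₁ L₂
  haveI := hLfin
  haveI := hLgal
  have hℓκ : ∀ ℓ : ℕ, ℓ.Prime → ℓ ≠ P.p → ((ℓ : ℕ) : Zbar ⧸ 𝔪) ≠ 0 := by
    intro ℓ hℓ hℓp h0
    have h1 : P.p ∣ ℓ := (CharP.cast_eq_zero_iff (Zbar ⧸ 𝔪) P.p ℓ).1 h0
    exact hℓp ((Nat.prime_dvd_prime_iff_eq P.pp hℓ).1 h1).symm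
  refine ⟨Zbar ⧸ 𝔪, inferInstance, ZMod.algebra (Zbar ⧸ 𝔪) P.p, ρ₀.V, inferInstance,
    inferInstance, ρ₀.ρ, Ideal.Quotient.mk 𝔪, ↥L, inferInstance,
    ⟨⟩, inferInstance, inferInstance, inferInstance, ?_, ρ₀.finrank_eq, ?_, ?_, ?_⟩
  · rw [Ideal.mk_ker]
  · intro σ hσ
    have hfix := h10_fix_of_mem_ker L σ hσ
    exact Subgroup.mem_inf.mpr
      ⟨MonoidHom.mem_ker.mpr (hE σ (fun x hx => hfix x (hL₂L hx))),
        MonoidHom.mem_ker.mpr (hρ σ (fun x hx => hfix x (hL₁L hx)))⟩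
  · intro ℓ hℓ hℓM hℓp A hA τ hτ
    obtain ⟨a, ha, hch⟩ := hatt ℓ hℓ hℓM (hℓκ ℓ hℓ hℓp) A hA τ hτ
    exact ⟨a, ha, (h10_trace_det_of_charpoly ρ₀.finrank_eq (ρ₀.ρ τ) _ _ hch).1⟩
  · intro ℓ hℓ hℓM hℓp A hA τ hτ
    obtain ⟨a, ha, hch⟩ := hatt ℓ hℓ hℓM (hℓκ ℓ hℓ hℓp) A hA τ hτ
    exact (h10_trace_det_of_charpoly ρ₀.finrank_eq (ρ₀.ρ τ) _ _ hch).2

/-- **(ASM-S42)**: the frozen statement S42 from `StCore` at all levels and `StFrey`. -/
theorem h10_s42_of_forall_core (P : FreyPackage) (hfrey : StFrey P)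
    (hcore : ∀ (M : ℕ), 0 < M → ∀ (g : CuspForm (CongruenceSubgroup.Gamma0 M) 2),
      g.IsNormalizedEigenform → ∀ (𝔪 : Ideal Zbar) [𝔪.IsMaximal],
        ((P.p : ℕ) : Zbar) ∈ 𝔪 → StCore M P.p g 𝔪) :
    ∀ M : ℕ, 0 < M → P.EigenformResidualAttachmentAt M := by
  intro M hM g hg 𝔪 h𝔪 hp
  haveI := h𝔪
  exact h10_s42_of_core P hfrey M g 𝔪 hp (hcore M hM g hg 𝔪 hp)

end Top

end Fermat.Agent.S42x.Asm.H10
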