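import Fermat.Agent.S42x.Asm.Defs
import Fermat.Agent.S42x.Top.H23_Mat

/-!
# W7 (S42 / S29): assembly of (EIG) from (B1) and the Kummer relation (helper23)

`h23_stEig_of_rel`: `Asm.StEig N p g 𝔪` from the matrix form of (B1) (`h23_top_eigen`) and an
**abstract** relation `R x b` between classes `x ∈ J₀(N)` and integral parabolic classes
`b : Γ₀(N) → ℤ` with the formal properties of the Kummer relation:
existence (K-ex), additivity (K-add), torsion (K-tors), easy injectivity (K-inj-easy),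
uniqueness (K-uniq) and Hecke equivariance in coset form (K-hecke).
-/

set_option autoImplicit false
set_option linter.style.haveILetI false

namespace Fermat.Agent.S42x.Asm.H23

open ModularCurve ModularCurve.Period CongruenceSubgroup ModularFormClass
open Fermat.Agent.S22 Fermat.Agent.S16x.Low.H5 Fermat.Agent.S42x.Top.H23
open scoped MatrixGroups

variable {N : ℕ} [NeZero N]

/-- Additivity of a relation extends to integer multiples. -/
theorem h23_rel_zsmul {X B : Type*} [AddCommGroup X] [AddCommGroup B] (R : X → B → Prop)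
    (hadd : ∀ x x' b b', R x b → R x' b' → R (x + x') (b + b'))
    (hneg : ∀ x b, R x b → R (-x) (-b)) (hzero : R 0 0)
    {x : X} {b : B} (h : R x b) (k : ℤ) : R (k • x) (k • b) := by
  have hn : ∀ m : ℕ, R (m • x) (m • b) := by
    intro m
    induction m with
    | zero => rw [zero_nsmul, zero_nsmul]; exact hzero
    | succ m ih => rw [succ_nsmul, succ_nsmul]; exact hadd _ _ _ _ ih h
  obtain ⟨m, rfl | rfl⟩ := k.eq_nat_or_neg
  · rw [natCast_zsmul, natCast_zsmul]; exact hn m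
  · rw [neg_zsmul, neg_zsmul, natCast_zsmul, natCast_zsmul]
    exact hneg _ _ (hn m)

/-- Additivity of a relation extends to finite integer combinations. -/
theorem h23_rel_sum {X B : Type*} [AddCommGroup X] [AddCommGroup B] (R : X → B → Prop)
    (hadd : ∀ x x' b b', R x b → R x' b' → R (x + x') (b + b'))
    (hneg : ∀ x b, R x b → R (-x) (-b)) (hzero : R 0 0)
    {ι : Type*} (s : Finset ι) (c : ι → ℤ) (x : ι → X) (b : ι → B)
    (h : ∀ i, R (x i) (b i)) : R (∑ i ∈ s, c i • x i) (∑ i ∈ s, c i • b i) := by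
  classical
  induction s using Finset.induction_on with
  | empty => rw [Finset.sum_empty, Finset.sum_empty]; exact hzero
  | insert a s ha ih =>
    rw [Finset.sum_insert ha, Finset.sum_insert ha]
    exact hadd _ _ _ _ (h23_rel_zsmul R hadd hneg hzero (h a) (c a)) ih

/-- **(EIG) from (B1) and an abstract Kummer relation.** -/
theorem h23_stEig_of_rel (N p : ℕ) [NeZero N] [Fact p.Prime]
    (g : CuspForm (Gamma0 N) 2) (hg : g.IsNormalizedEigenform)
    (𝔪 : Ideal Zbar) [𝔪.IsMaximal] (hp : (p : Zbar) ∈ 𝔪)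
    (R : JZero N → (Additive (Gamma0 N) →+ ℤ) → Prop)
    (hex : ∀ b, IsParabolicHom (Gamma0 N) b → ∃ x, R x b)
    (hadd : ∀ x x' b b', R x b → R x' b' → R (x + x') (b + b'))
    (hneg : ∀ x b, R x b → R (-x) (-b)) (hzero : R 0 0)
    (htors : ∀ x b, R x b → p • x = 0)
    (hinj : ∀ b, R 0 b → ∀ γ : Gamma0 N, (p : ℤ) ∣ b (Additive.ofMul γ))
    (huniq : ∀ x, R x 0 → x = 0)
    (hhecke : ∀ ℓ : Nat.Primes, ¬ (ℓ : ℕ) ∣ N * p → ∀ x b b', R x b →
      IsParabolicHom (Gamma0 N) b →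
      (haveI : Fact (ℓ : ℕ).Prime := ⟨ℓ.2⟩
       ∀ (γ : Gamma0 N) (σ : Equiv.Perm (OnePoint (ZMod (ℓ : ℕ))))
        (γ' : OnePoint (ZMod (ℓ : ℕ)) → SL(2, ℤ))
        (h : CosetData (tA ℓ) (tB ℓ) (tD ℓ) N (γ : SL(2, ℤ)) σ γ'),
        ∑ i, b (Additive.ofMul (⟨γ' i, h.1 i⟩ : Gamma0 N)) = b' (Additive.ofMul γ)) →
      R (heckeOperatorBar N ℓ x) b') :
    StEig N p g 𝔪 := by
  classical
  obtain ⟨n, b, t, a, w, hb, hli, hcos, ha, hw, heig⟩ := h23_top_eigen N g hg p 𝔪 hp
  choose x hx using fun j => hex (b j) (hb j)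
  have hsum : ∀ c : Fin n → ℤ, R (∑ j, c j • x j) (∑ j, c j • b j) :=
    fun c => h23_rel_sum R hadd hneg hzero Finset.univ c x b hx
  refine ⟨n, x, w, fun ℓ => t ℓ, fun ℓ => a ℓ, fun j => htors _ _ (hx j), ?_,
    Function.ne_iff.mp hw, ?_⟩
  · -- independence modulo `p`
    intro c hc j
    have h1 := hsum c
    rw [hc] at h1
    have h2 := hinj _ h1
    rw [Fintype.linearIndependent_iff] at hli
    have h3 := hli (fun j => ((c j : ℤ) : ZMod p)) (by
      refine AddMonoidHom.ext fun γ => ?_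
      have h4 := h2 (Additive.toMul γ)
      rw [← ZMod.intCast_zmod_eq_zero_iff_dvd] at h4
      simp only [AddMonoidHom.finsetSum_apply, AddMonoidHom.smul_apply, smul_eq_mul,
        Int.cast_sum, Int.cast_mul, ofMul_toMul] at h4
      simpa only [AddMonoidHom.finsetSum_apply, AddMonoidHom.smul_apply, smul_eq_mul,
        AddMonoidHom.comp_apply, Int.coe_castAddHom, AddMonoidHom.zero_apply] using h4) j
    exact (ZMod.intCast_zmod_eq_zero_iff_dvd _ _).mp h3
  · intro ℓ hℓ
    have hℓN : ¬ (ℓ : ℕ) ∣ N := fun h => hℓ (Dvd.dvd.mul_right h p)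
    haveI : Fact (ℓ : ℕ).Prime := ⟨ℓ.2⟩
    refine ⟨ha ℓ ℓ.2 hℓN, fun j => ?_, fun i => heig ℓ ℓ.2 hℓN i⟩
    have h1 : R (heckeOperatorBar N ℓ (x j)) (∑ i, t ℓ i j • b i) := by
      refine hhecke ℓ hℓ (x j) (b j) _ (hx j) (hb j) ?_
      intro γ σ γ' h
      rw [hcos ℓ hℓN γ σ γ' h j]
      simp only [AddMonoidHom.finsetSum_apply, AddMonoidHom.smul_apply, smul_eq_mul]
    have h2 := hsum fun i => t ℓ i j
    have h3 := hadd _ _ _ _ h1 (hneg _ _ h2)
    rw [add_neg_cancel] at h3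
    have h4 := huniq _ h3
    rwa [add_neg_eq_zero] at h4

end Fermat.Agent.S42x.Asm.H23
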