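import Fermat.Agent.S42x.Asm.H23_EigKum
import Fermat.Agent.S42x.Kum.Defs

/-!
# W7 (S42 / S29): (EIG) from (K-ex) + (K-uniq) + (K-hecke), chief's spelling (helper23)

`h23_stEig`: `Asm.StEig N p g 𝔪` from the three Props `Kum.StKumEx`, `Kum.StKumUniq`,
`Kum.StKumHecke` of `S42x/Kum/Defs.lean` (for a primitive `p`-th root of unity `ζ`).
`h23_kumRel_iff` identifies the chief's `Kum.KumRel` with helper12's `Kum.H12.KumRel`.
-/

set_option autoImplicit false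
set_option linter.style.haveILetI false

namespace Fermat.Agent.S42x.Asm.H23

open ModularCurve ModularCurve.Period CongruenceSubgroup ModularFormClass
open Fermat.Agent.S22
open scoped MatrixGroups

/-- The chief's Kummer relation is helper12's. -/
theorem h23_kumRel_iff {N p : ℕ} [NeZero N] {e : AlgebraicClosure ℚ →+* ℂ} {ζ : ℂ}
    {x : JZero N} {b : Additive (Gamma0 N) →+ ℤ} :
    Fermat.Agent.S42x.Kum.KumRel N p e ζ x b ↔ Fermat.Agent.S42x.Kum.H12.KumRel N p e ζ x b := by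
  constructor
  · rintro ⟨f, D, y, hf, hD, hx, hy, hγ⟩
    exact ⟨f, D, y, hf, hD, hx.symm, hy, hγ⟩
  · rintro ⟨f, D, y, hf, hD, hx, hy, hγ⟩
    exact ⟨f, D, y, hf, hD, hx.symm, hy, hγ⟩

/-- **(EIG) from (K-ex), (K-uniq), (K-hecke)** in the spelling of `S42x/Kum/Defs.lean`. -/
theorem h23_stEig (N p : ℕ) [NeZero N] [Fact p.Prime]
    (g : CuspForm (Gamma0 N) 2) (hg : g.IsNormalizedEigenform)
    (𝔪 : Ideal Zbar) [𝔪.IsMaximal] (hp : (p : Zbar) ∈ 𝔪)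
    (e : AlgebraicClosure ℚ →+* ℂ) (ζ : ℂ) (hζ : IsPrimitiveRoot ζ p)
    (hex : Fermat.Agent.S42x.Kum.StKumEx N p e ζ)
    (huniq : Fermat.Agent.S42x.Kum.StKumUniq N p e ζ)
    (hhecke : Fermat.Agent.S42x.Kum.StKumHecke N p e ζ) :
    StEig N p g 𝔪 := by
  refine h23_stEig_of_kum N p g hg 𝔪 hp e ζ hζ ?_ ?_ ?_
  · intro b hb
    obtain ⟨x, hx⟩ := hex b hb
    exact ⟨x, h23_kumRel_iff.mp hx⟩
  · intro x hx
    exact huniq x (h23_kumRel_iff.mpr hx)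
  · intro ℓ hℓ x b b' hxb _ hcos
    haveI : Fact (ℓ : ℕ).Prime := ⟨ℓ.2⟩
    have hℓN : ¬ (ℓ : ℕ) ∣ N := fun h => hℓ (Dvd.dvd.mul_right h p)
    have h1 := hhecke (ℓ : ℕ) hℓN x b b' (h23_kumRel_iff.mpr hxb) (by
      intro g₀ σ g' h
      exact (hcos g₀ σ g' ⟨h.1, h.2⟩).symm)
    exact h23_kumRel_iff.mp h1

end Fermat.Agent.S42x.Asm.H23
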