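import Mathlib
import Fermat.Agent.S42x.Asm.Defs
import Fermat.Agent.S42x.Lin.H25_Lin

/-!
# W7 (ASM-CORE), abstract half: from a Galois-stable finite-dimensional space with the
Eichler–Shimura relation to a `ResidualGaloisRep` (helper25)

`core_lin`: `κ` algebraically closed of characteristic `p`, `ρ : G →* End_κ M`, `W₀ ≤ M`
finite-dimensional, non-zero, `G`-stable, fixed pointwise by `Gal(ℚ̄/K)` for a number field `K`,
inertia at `ℓ ∤ N p` trivial on `W₀`, every Frobenius `σ` at `ℓ ∤ N p` satisfies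
`σ² - ā_ℓ σ + ℓ = 0` on `W₀`; with (CYC) and (DENS) there is a two-dimensional
`ResidualGaloisRep κ` with `charpoly (ρ' σ) = X² - ā_ℓ X + ℓ`, unramified at every `ℓ ∤ N p`.
-/

set_option autoImplicit false
set_option synthInstance.maxHeartbeats 400000
set_option maxHeartbeats 1000000

open Polynomial

noncomputable section

namespace Fermat.Agent.S42x.Asm.H25

open Fermat.Agent.S42x.Asm Fermat.Agent.S42x.Lin.H25

theorem core_lin {κ : Type} [Field κ] [IsAlgClosed κ] (N p : ℕ) (hN : N ≠ 0) [Fact p.Prime]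
    (hp0 : (p : κ) = 0) (abar : ℕ → κ)
    {M : Type} [AddCommGroup M] [Module κ M] (ρ : GQ →* Module.End κ M)
    (W₀ : Submodule κ M) [FiniteDimensional κ W₀] (hW₀ : W₀ ≠ ⊥)
    (hinv : ∀ g, ∀ x ∈ W₀, ρ g x ∈ W₀)
    (hlevel : ∃ K : IntermediateField ℚ (AlgebraicClosure ℚ), FiniteDimensional ℚ K ∧
      ∀ σ : GQ, (∀ a ∈ K, σ a = a) → ∀ x ∈ W₀, ρ σ x = x)
    (hinert : ∀ ℓ : ℕ, ℓ.Prime → ¬ ℓ ∣ N * p →
      ∀ A : ValuationSubring (AlgebraicClosure ℚ), A.LiesOverPrime ℓ →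
        ∀ τ ∈ A.inertiaSubgroupIn ℚ, ∀ x ∈ W₀, ρ τ x = x)
    (hfrob : ∀ ℓ : ℕ, ℓ.Prime → ¬ ℓ ∣ N * p →
      ∀ A : ValuationSubring (AlgebraicClosure ℚ), A.LiesOverPrime ℓ →
        ∀ σ : GQ, A.IsFrobeniusAt σ ℓ →
          ∀ x ∈ W₀, ρ σ (ρ σ x) - abar ℓ • ρ σ x + (ℓ : κ) • x = 0)
    (hcyc : StCyc p) (hdens : StDens) :
    ∃ ρ' : ResidualGaloisRep κ,
      (∀ ℓ : ℕ, ℓ.Prime → ¬ ℓ ∣ N * p →
        ∀ A : ValuationSubring (AlgebraicClosure ℚ), A.LiesOverPrime ℓ →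
          ∀ σ : GQ, A.IsFrobeniusAt σ ℓ →
            LinearMap.charpoly (ρ'.ρ σ) = X ^ 2 - C (abar ℓ) * X + C (ℓ : κ)) ∧
      ∀ ℓ : ℕ, ℓ.Prime → ¬ ℓ ∣ N * p → ρ'.IsUnramifiedAt ℓ := by
  classical
  have hpp : p.Prime := Fact.out
  have : CharP κ p := (CharP.charP_iff_prime_eq_zero hpp).mpr hp0
  obtain ⟨d₀, hd₀, Kc, hKc, hKc1⟩ := hcyc
  obtain ⟨KW, hKW, hKW1⟩ := hlevel
  have hne : ∀ ℓ : ℕ, ¬ ℓ ∣ N * p → ℓ ≠ p := fun ℓ h hℓp => h (hℓp ▸ dvd_mul_left ℓ N)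
  -- the cyclotomic character with values in `κ`
  let φ : ZMod p →+* κ := ZMod.castHom (dvd_refl p) κ
  let d : GQ →* κˣ := (Units.map (φ : ZMod p →* κ)).comp d₀
  have hd_apply : ∀ σ : GQ, ((d σ : κˣ) : κ) = φ ((d₀ σ : (ZMod p)ˣ) : ZMod p) := fun σ => rfl
  have hd_one : ∀ σ : GQ, d₀ σ = 1 → d σ = 1 := by
    intro σ h
    show (Units.map (φ : ZMod p →* κ)) (d₀ σ) = 1
    rw [h, map_one]
  have hd_frob : ∀ ℓ : ℕ, ℓ.Prime → ¬ ℓ ∣ N * p →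
      ∀ A : ValuationSubring (AlgebraicClosure ℚ), A.LiesOverPrime ℓ →
        ∀ σ : GQ, A.IsFrobeniusAt σ ℓ → ((d σ : κˣ) : κ) = (ℓ : κ) := by
    intro ℓ hℓ hℓN A hA σ hσ
    rw [hd_apply, (hd₀ ℓ hℓ (hne ℓ hℓN) A hA).2 σ hσ, map_natCast]
  -- the relation in the form consumed by (LIN)
  have hrel : ∀ ℓ : ℕ, ℓ.Prime → ¬ ℓ ∣ N * p →
      ∀ A : ValuationSubring (AlgebraicClosure ℚ), A.LiesOverPrime ℓ →
        ∀ σ : GQ, A.IsFrobeniusAt σ ℓ →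
          ∀ x ∈ W₀, ρ σ x + ((d σ : κˣ) : κ) • ρ σ⁻¹ x = abar ℓ • x := by
    intro ℓ hℓ hℓN A hA σ hσ x hx
    have h1 := hfrob ℓ hℓ hℓN A hA σ hσ (ρ σ⁻¹ x) (hinv _ x hx)
    have h2 : ρ σ (ρ σ⁻¹ x) = x := by
      have := lin_mul_inv ρ σ
      calc ρ σ (ρ σ⁻¹ x) = (ρ σ * ρ σ⁻¹) x := rfl
        _ = x := by rw [this]; rfl
    rw [h2] at h1
    rw [hd_frob ℓ hℓ hℓN A hA σ hσ]
    have h3 : ρ σ x + (ℓ : κ) • ρ σ⁻¹ x - abar ℓ • x = 0 := by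
      rw [← h1]; abel
    exact sub_eq_zero.mp h3
  -- the set of Frobenius elements and the trace function
  let S : Set GQ := {F | ∃ ℓ : ℕ, ℓ.Prime ∧ ¬ ℓ ∣ N * p ∧
    ∃ A : ValuationSubring (AlgebraicClosure ℚ), A.LiesOverPrime ℓ ∧ A.IsFrobeniusAt F ℓ}
  let a₀ : GQ → κ := fun F => if h : F ∈ S then abar h.choose else 0
  have ha₀ : ∀ F (h : F ∈ S), a₀ F = abar h.choose := fun F h => dif_pos h
  have hS : ∀ F ∈ S, ∀ x ∈ W₀, ρ F x + ((d F : κˣ) : κ) • ρ F⁻¹ x = a₀ F • x := by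
    intro F hF x hx
    rw [ha₀ F hF]
    obtain ⟨h1, h2, A, hA, hFA⟩ := hF.choose_spec
    exact hrel _ h1 h2 A hA F hFA x hx
  -- the finite level
  let K : IntermediateField ℚ (AlgebraicClosure ℚ) := KW ⊔ Kc
  have : FiniteDimensional ℚ KW := hKW
  have : FiniteDimensional ℚ Kc := hKc
  have hK : FiniteDimensional ℚ K := IntermediateField.finiteDimensional_sup KW Kc
  have hKfix : ∀ σ : GQ, (∀ a ∈ K, σ a = a) → (∀ x ∈ W₀, ρ σ x = x) ∧ d σ = 1 := by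
    intro σ hσ
    refine ⟨hKW1 σ (fun a ha => hσ a ((le_sup_left : KW ≤ K) ha)), ?_⟩
    exact hd_one σ (hKc1 σ (fun a ha => hσ a ((le_sup_right : Kc ≤ K) ha)))
  have hdense : ∀ h : GQ, ∃ F ∈ S, ∃ k : ℕ,
      (∀ x ∈ W₀, ρ h x = ρ (F ^ k) x) ∧ d h = d (F ^ k) := by
    intro h
    obtain ⟨ℓ, A, σ, k, hℓ, hℓS, hA, hσ, hk⟩ := hdens K hK (N * p).divisors h
    have hℓN : ¬ ℓ ∣ N * p := fun hdiv =>
      hℓS (Nat.mem_divisors.mpr ⟨hdiv, Nat.mul_ne_zero hN hpp.ne_zero⟩)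
    refine ⟨σ, ⟨ℓ, hℓ, hℓN, A, hA, hσ⟩, k, ?_⟩
    have hg : ∀ a ∈ K, ((σ ^ k)⁻¹ * h) a = a := by
      intro a ha
      show (σ ^ k)⁻¹ (h a) = a
      rw [hk a ha]
      exact (σ ^ k).symm_apply_apply a
    obtain ⟨hg1, hg2⟩ := hKfix _ hg
    have hdec : h = σ ^ k * ((σ ^ k)⁻¹ * h) := by group
    constructor
    · intro x hx
      conv_lhs => rw [hdec, map_mul]
      show ρ (σ ^ k) (ρ ((σ ^ k)⁻¹ * h) x) = _
      rw [hg1 x hx]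
    · conv_lhs => rw [hdec, map_mul, hg2, mul_one]
  obtain ⟨V, i1, i2, i3, ρ', hfin, hchar, hker⟩ :=
    lin_exists_of_dense_sub ρ d S a₀ W₀ hW₀ hinv hS hdense
  refine ⟨{ V := V
            finrank_eq := hfin
            ρ := ρ'
            factorsThroughFiniteLevel := ⟨K, hK, fun σ hσ =>
              hker σ (hKfix σ hσ).1 (hKfix σ hσ).2⟩ }, ?_, ?_⟩
  · intro ℓ hℓ hℓN A hA σ hσ
    have hσS : σ ∈ S := ⟨ℓ, hℓ, hℓN, A, hA, hσ⟩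
    obtain ⟨x, hx, hx0⟩ := Submodule.exists_mem_ne_zero_of_ne_bot hW₀
    have e1 := hS σ hσS x hx
    have e2 := hrel ℓ hℓ hℓN A hA σ hσ x hx
    have e3 : (a₀ σ - abar ℓ) • x = 0 := by
      rw [sub_smul, ← e1, ← e2, sub_self]
    have e4 : a₀ σ = abar ℓ := by
      rcases smul_eq_zero.mp e3 with h | h
      · exact sub_eq_zero.mp h
      · exact absurd h hx0
    have := hchar σ hσS
    rw [e4, hd_frob ℓ hℓ hℓN A hA σ hσ] at this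
    exact this
  · intro ℓ hℓ hℓN A hA τ hτ
    exact hker τ (hinert ℓ hℓ hℓN A hA τ hτ)
      (hd_one τ ((hd₀ ℓ hℓ (hne ℓ hℓN) A hA).1 τ hτ))

end Fermat.Agent.S42x.Asm.H25
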