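import Mathlib
import Fermat.Agent.S42x.Asm.H25_CoreLin

/-!
# W7 (ASM-CORE), abstract half, inverse form (helper25)

`core_lin_inv`: `core_lin` with the Eichler–Shimura relation in the form
`ρ σ x + ℓ • ρ σ⁻¹ x = ā_ℓ • x` on `W₀`.

`core_lin_stCore`: the same with conclusion `StCore N p g 𝔪`, for `κ = Z̄ ⧸ 𝔪` and
`ā_ℓ = a_ℓ(g) mod 𝔪`.
-/

set_option autoImplicit false
set_option linter.style.haveILetI false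
set_option synthInstance.maxHeartbeats 400000
set_option maxHeartbeats 1000000

open Polynomial

noncomputable section

namespace Fermat.Agent.S42x.Asm.H25

open Fermat.Agent.S42x.Asm Fermat.Agent.S42x.Lin.H25

theorem core_lin_inv {κ : Type} [Field κ] [IsAlgClosed κ] (N p : ℕ) (hN : N ≠ 0) [Fact p.Prime]
    (hp0 : (p : κ) = 0) (abar : ℕ → κ)
    {M : Type} [AddCommGroup M] [Module κ M] (ρ : GQ →* Module.End κ M)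
    (W₀ : Submodule κ M) [FiniteDimensional κ W₀] (hW₀ : W₀ ≠ ⊥)
    (hinv : ∀ g, ∀ x ∈ W₀, ρ g x ∈ W₀)
    (hlevel : ∃ K : IntermediateField ℚ (AlgebraicClosure ℚ), FiniteDimensional ℚ K ∧
      ∀ σ : GQ, (∀ a ∈ K, σ a = a) → ∀ x ∈ W₀, ρ σ x = x)
    (hinert : ∀ ℓ : ℕ, ℓ.Prime → ¬ ℓ ∣ N * p →
      ∀ A : ValuationSubring (AlgebraicClosure ℚ), A.LiesOverPrime ℓ →
        ∀ τ ∈ A.inertiaSubgroupIn ℚ, ∀ x ∈ W₀, ρ τ x = x)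
    (hfrob : ∀ ℓ : ℕ, ℓ.Prime → ¬ ℓ ∣ N * p →
      ∀ A : ValuationSubring (AlgebraicClosure ℚ), A.LiesOverPrime ℓ →
        ∀ σ : GQ, A.IsFrobeniusAt σ ℓ →
          ∀ x ∈ W₀, ρ σ x + (ℓ : κ) • ρ σ⁻¹ x = abar ℓ • x)
    (hcyc : StCyc p) (hdens : StDens) :
    ∃ ρ' : ResidualGaloisRep κ,
      (∀ ℓ : ℕ, ℓ.Prime → ¬ ℓ ∣ N * p →
        ∀ A : ValuationSubring (AlgebraicClosure ℚ), A.LiesOverPrime ℓ →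
          ∀ σ : GQ, A.IsFrobeniusAt σ ℓ →
            LinearMap.charpoly (ρ'.ρ σ) = X ^ 2 - C (abar ℓ) * X + C (ℓ : κ)) ∧
      ∀ ℓ : ℕ, ℓ.Prime → ¬ ℓ ∣ N * p → ρ'.IsUnramifiedAt ℓ := by
  refine core_lin N p hN hp0 abar ρ W₀ hW₀ hinv hlevel hinert ?_ hcyc hdens
  intro ℓ hℓ hℓN A hA σ hσ x hx
  have h1 := hfrob ℓ hℓ hℓN A hA σ hσ (ρ σ x) (hinv σ x hx)
  have h2 : ρ σ⁻¹ (ρ σ x) = x := by
    have := lin_inv_mul ρ σ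
    calc ρ σ⁻¹ (ρ σ x) = (ρ σ⁻¹ * ρ σ) x := rfl
      _ = x := by rw [this]; rfl
  rw [h2] at h1
  rw [← h1]
  abel

/-- The conclusion in the form `StCore N p g 𝔪`. -/
theorem core_lin_stCore (N p : ℕ) (hN : N ≠ 0) [Fact p.Prime]
    (g : CuspForm (CongruenceSubgroup.Gamma0 N) 2) (𝔪 : Ideal Zbar) [𝔪.IsMaximal]
    (hp : ((p : ℕ) : Zbar) ∈ 𝔪) (a : Nat.Primes → Zbar)
    (ha : ∀ ℓ : Nat.Primes, ¬ (ℓ : ℕ) ∣ N * p →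
      ((a ℓ : Zbar) : ℂ) = ModularFormClass.qCoeff g ℓ)
    {M : Type} [AddCommGroup M] [Module (Zbar ⧸ 𝔪) M] (ρ : GQ →* Module.End (Zbar ⧸ 𝔪) M)
    (W₀ : Submodule (Zbar ⧸ 𝔪) M) [Module.Finite (Zbar ⧸ 𝔪) W₀] (hW₀ : W₀ ≠ ⊥)
    (hinv : ∀ g, ∀ x ∈ W₀, ρ g x ∈ W₀)
    (hlevel : ∃ K : IntermediateField ℚ (AlgebraicClosure ℚ), FiniteDimensional ℚ K ∧
      ∀ σ : GQ, (∀ a ∈ K, σ a = a) → ∀ x ∈ W₀, ρ σ x = x)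
    (hinert : ∀ ℓ : ℕ, ℓ.Prime → ¬ ℓ ∣ N * p →
      ∀ A : ValuationSubring (AlgebraicClosure ℚ), A.LiesOverPrime ℓ →
        ∀ τ ∈ A.inertiaSubgroupIn ℚ, ∀ x ∈ W₀, ρ τ x = x)
    (hfrob : ∀ ℓ : Nat.Primes, ¬ (ℓ : ℕ) ∣ N * p →
      ∀ A : ValuationSubring (AlgebraicClosure ℚ), A.LiesOverPrime ℓ →
        ∀ σ : GQ, A.IsFrobeniusAt σ ℓ →
          ∀ x ∈ W₀, ρ σ x + (((ℓ : ℕ) : ℤ) : Zbar ⧸ 𝔪) • ρ σ⁻¹ x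
            = Ideal.Quotient.mk 𝔪 (a ℓ) • x)
    (hcyc : StCyc p) (hdens : StDens) : StCore N p g 𝔪 := by
  classical
  letI : Field (Zbar ⧸ 𝔪) := Ideal.Quotient.field 𝔪
  haveI : IsAlgClosed (Zbar ⧸ 𝔪) :=
    isAlgClosed_of_surjective (Ideal.Quotient.mk 𝔪) Ideal.Quotient.mk_surjective
  have hpp : p.Prime := Fact.out
  have hp0 : ((p : ℕ) : Zbar ⧸ 𝔪) = 0 := by
    rw [← map_natCast (Ideal.Quotient.mk 𝔪)]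
    exact Ideal.Quotient.eq_zero_iff_mem.mpr hp
  let abar : ℕ → Zbar ⧸ 𝔪 := fun ℓ =>
    if h : ℓ.Prime then Ideal.Quotient.mk 𝔪 (a ⟨ℓ, h⟩) else 0
  have habar : ∀ (ℓ : ℕ) (h : ℓ.Prime), abar ℓ = Ideal.Quotient.mk 𝔪 (a ⟨ℓ, h⟩) :=
    fun ℓ h => dif_pos h
  obtain ⟨ρ', h1, h2⟩ := core_lin_inv (κ := Zbar ⧸ 𝔪) N p hN hp0 abar ρ W₀ hW₀ hinv hlevel
    hinert (by
      intro ℓ hℓ hℓN A hA σ hσ x hx
      have := hfrob ⟨ℓ, hℓ⟩ hℓN A hA σ hσ x hx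
      rw [habar ℓ hℓ]
      simpa using this) hcyc hdens
  refine ⟨ρ', ?_, h2⟩
  intro ℓ hℓ hℓN hℓ0 A hA σ hσ
  have hℓNp : ¬ ℓ ∣ N * p := by
    intro hdiv
    rcases (Nat.Prime.dvd_mul hℓ).mp hdiv with h | h
    · exact hℓN h
    · have : ℓ = p := (Nat.prime_dvd_prime_iff_eq hℓ hpp).mp h
      exact hℓ0 (this ▸ hp0)
  refine ⟨a ⟨ℓ, hℓ⟩, ha ⟨ℓ, hℓ⟩ hℓNp, ?_⟩
  have := h1 ℓ hℓ hℓNp A hA σ hσ
  rw [habar ℓ hℓ] at this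
  exact this

end Fermat.Agent.S42x.Asm.H25
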