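import Fermat.Agent.S42x.Asm.H5_CoreJ

/-!
# W7 (ASM-CORE) (helper5): `StCore ⇐ StEig + StSpec + StHeckeGal + StDens`

* `h5_wit`      : a Frobenius element at `ℓ ∤ N p` carries a witness (in the sense of
  `H5_CoreAbs`) with eigenvalue `ā_ℓ`;
* `h5_core_gen` : the mod-`p` Galois representation over ANY algebraically closed field `κ` of
  characteristic `p` receiving `ℤ̄` (serves S29 directly);
* `h5_stCore`   : `Asm.StCore N p g 𝔪`.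
-/

set_option autoImplicit false
set_option linter.unusedSectionVars false
set_option linter.style.haveILetI false
set_option synthInstance.maxHeartbeats 400000
set_option maxHeartbeats 1000000

open ModularCurve AlgebraicCurve Polynomial

noncomputable section

namespace Fermat.Agent.S42x.Asm.H5

open Fermat.Agent.S42x.Cyc.H5

local notation "Qbar" => AlgebraicClosure ℚ

variable {N p : ℕ} [NeZero N] [Fact p.Prime]

theorem h5_ne_of_not_dvd {ℓ : ℕ} (hℓN : ¬ ℓ ∣ N * p) : ℓ ≠ p := by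
  rintro rfl
  exact hℓN (Dvd.intro_left N rfl)

section Gen

variable {κ : Type} [Field κ] [Algebra (ZMod p) κ]

/-- The witness at a Frobenius element. -/
theorem h5_wit (hSpec : Fermat.Agent.S37x.Asm.StSpec N p) (hHG : StHeckeGal N) {n : ℕ}
    (x : Fin n → JZero N) (hx : ∀ j, p • x j = 0) (w : Fin n → κ)
    (L : Nat.Primes) (hℓN : ¬ (L : ℕ) ∣ N * p) (tm : Matrix (Fin n) (Fin n) ℤ) (c : κ)
    (hT : ∀ j, heckeOperatorBar N L (x j) = ∑ i, tm i j • x i)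
    (heig : ∀ i, ∑ j, ((tm i j : ℤ) : κ) * w j = c * w i)
    (A : ValuationSubring Qbar) (hA : A.LiesOverPrime (L : ℕ)) (σ : GQ)
    (hσ : A.IsFrobeniusAt σ (L : ℕ)) :
    H5Wit (JZero.torsionGaloisRep N p) (fun j => (h5_toJp (x j) (hx j) : H5Jp N p)) w
      (h5_cycK p κ) σ c := by
  refine ⟨h5_TJ N p L, ((L : ℕ) : ZMod p), tm.map (Int.cast : ℤ → ZMod p), ?_, ?_, ?_, ?_, ?_⟩
  · intro g v
    apply Subtype.ext
    rw [h5_coe_TJ, h5_coe_rho, h5_coe_rho, h5_coe_TJ]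
    exact hHG L g _
  · intro j
    apply Subtype.ext
    rw [h5_coe_TJ, h5_coe_toJp, hT j, AddSubgroup.val_finsetSum]
    refine Finset.sum_congr rfl fun i _ => ?_
    rw [h5_coe_zmod_smul _ (tm i j) (by rw [Matrix.map_apply])]
    rfl
  · intro i
    rw [← heig i]
    refine Finset.sum_congr rfl fun j _ => ?_
    rw [Matrix.map_apply, map_intCast]
  · rw [map_natCast]
    exact (h5_cycK_frob κ L.2 (h5_ne_of_not_dvd hℓN) A hA σ hσ).symm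
  · intro z
    apply Subtype.ext
    have h1 := h5_frob_torsion hSpec L.2 hℓN A hA σ hσ (z : JZero N) (h5_nsmul_coe z)
    rw [AddSubgroup.coe_add, AddSubgroup.coe_sub, h5_coe_TJ, h5_coe_rho, h5_coe_rho,
      h5_coe_zmod_smul ((L : ℕ) : ZMod p) ((L : ℕ) : ℤ) (by simp) z, natCast_zsmul]
    exact h1

end Gen

/-- **(ASM-CORE), general coefficient field.** -/
theorem h5_core_gen (κ : Type) [Field κ] [CharP κ p] [IsAlgClosed κ]
    (π : Zbar →+* κ) (g : CuspForm (CongruenceSubgroup.Gamma0 N) 2)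
    (hSpec : Fermat.Agent.S37x.Asm.StSpec N p) (hHG : StHeckeGal N) (hDens : StDens)
    (hEig : ∃ (n : ℕ) (x : Fin n → JZero N) (w : Fin n → κ)
      (t : Nat.Primes → Matrix (Fin n) (Fin n) ℤ) (a : Nat.Primes → Zbar),
      (∀ j, p • x j = 0) ∧
      (∀ c : Fin n → ℤ, ∑ j, c j • x j = 0 → ∀ j, (p : ℤ) ∣ c j) ∧
      (∃ j, w j ≠ 0) ∧
      ∀ ℓ : Nat.Primes, ¬ (ℓ : ℕ) ∣ N * p →
        ((a ℓ : Zbar) : ℂ) = ModularFormClass.qCoeff g ℓ ∧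
        (∀ j, heckeOperatorBar N ℓ (x j) = ∑ i, t ℓ i j • x i) ∧
        ∀ i, ∑ j, ((t ℓ i j : ℤ) : κ) * w j = π (a ℓ) * w i) :
    ∃ ρ : ResidualGaloisRep κ, ρ.IsAttachedTo g π ∧
      ∀ ℓ : ℕ, ℓ.Prime → ¬ ℓ ∣ N * p → ρ.IsUnramifiedAt ℓ := by
  classical
  letI : Algebra (ZMod p) κ := ZMod.algebra κ p
  have hpp : p.Prime := Fact.out
  obtain ⟨n, x, w, t, a, hx, hind, hw, hE⟩ := hEig
  have hw0 : w ≠ 0 := by
    obtain ⟨j, hj⟩ := hw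
    intro h
    exact hj (by rw [h]; rfl)
  -- the data
  set xt : Fin n → H5Jp N p := fun j => h5_toJp (x j) (hx j) with hxt
  have hli : LinearIndependent (ZMod p) xt := h5_linearIndependent x hx hind
  have hfin := h5_orbit_finite (N := N) (p := p) xt
  -- the set of Frobenius elements
  let S : Set GQ := {F | ∃ ℓ : ℕ, ∃ hℓ : ℓ.Prime, ¬ ℓ ∣ N * p ∧
    ∃ A : ValuationSubring Qbar, A.LiesOverPrime ℓ ∧ A.IsFrobeniusAt F ℓ}
  have hwitS : ∀ (ℓ : ℕ) (hℓ : ℓ.Prime), ¬ ℓ ∣ N * p → ∀ A : ValuationSubring Qbar,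
      A.LiesOverPrime ℓ → ∀ σ : GQ, A.IsFrobeniusAt σ ℓ →
      H5Wit (JZero.torsionGaloisRep N p) xt w (h5_cycK p κ) σ (π (a ⟨ℓ, hℓ⟩)) := by
    intro ℓ hℓ hℓN A hA σ hσ
    obtain ⟨-, hT, heig⟩ := hE ⟨ℓ, hℓ⟩ hℓN
    exact h5_wit hSpec hHG x hx w ⟨ℓ, hℓ⟩ hℓN (t ⟨ℓ, hℓ⟩) _ hT heig A hA σ hσ
  -- the levels
  obtain ⟨K₁, hK₁, hK₁n, hfix⟩ := h5_stab_normal N x
  obtain ⟨K₂, hK₂, hcyc⟩ := h5_cycK_level p κ
  have hKfd : FiniteDimensional ℚ ↥(K₁ ⊔ K₂) := IntermediateField.finiteDimensional_sup K₁ K₂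
  have hfixJ : ∀ σ : GQ, (∀ a ∈ K₁ ⊔ K₂, σ a = a) → ∀ (h : GQ) (j : Fin n),
      JZero.torsionGaloisRep N p σ (JZero.torsionGaloisRep N p h (xt j)) =
        JZero.torsionGaloisRep N p h (xt j) := by
    intro σ hσ h j
    apply Subtype.ext
    rw [h5_coe_rho, h5_coe_rho]
    exact hfix σ (fun a ha => hσ a ((le_sup_left : K₁ ≤ K₁ ⊔ K₂) ha)) h j
  have hcyc' : ∀ σ : GQ, (∀ a ∈ K₁ ⊔ K₂, σ a = a) → h5_cycK p κ σ = 1 :=
    fun σ hσ => hcyc σ fun a ha => hσ a ((le_sup_right : K₂ ≤ K₁ ⊔ K₂) ha)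
  -- density
  have hdense : ∀ h : GQ, ∃ F ∈ S, ∃ m : ℕ,
      (∀ g j, JZero.torsionGaloisRep N p h (JZero.torsionGaloisRep N p g (xt j)) =
        JZero.torsionGaloisRep N p (F ^ m) (JZero.torsionGaloisRep N p g (xt j))) ∧
      h5_cycK p κ h = h5_cycK p κ (F ^ m) := by
    intro h
    obtain ⟨ℓ, A, σ, m, hℓ, hℓS, hA, hσ, hh⟩ := hDens (K₁ ⊔ K₂) hKfd (N * p).primeFactors h
    have hℓN : ¬ ℓ ∣ N * p := by
      intro hd
      exact hℓS (Nat.mem_primeFactors.mpr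
        ⟨hℓ, hd, Nat.mul_ne_zero (NeZero.ne N) hpp.ne_zero⟩)
    have hg₀ : ∀ a ∈ K₁ ⊔ K₂, ((σ ^ m)⁻¹ * h) a = a := by
      intro a ha
      change (σ ^ m)⁻¹ (h a) = a
      rw [hh a ha]
      exact (σ ^ m).symm_apply_apply a
    have hdec : h = σ ^ m * ((σ ^ m)⁻¹ * h) := by rw [mul_inv_cancel_left]
    refine ⟨σ, ⟨ℓ, hℓ, hℓN, A, hA, hσ⟩, m, ?_, ?_⟩
    · intro g j
      conv_lhs => rw [hdec, map_mul, Module.End.mul_apply, hfixJ _ hg₀ g j]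
    · conv_lhs => rw [hdec, map_mul, hcyc' _ hg₀, mul_one]
  obtain ⟨V', i1, i2, i3, ρ', h2, hch, hker⟩ :=
    h5_core_abs (JZero.torsionGaloisRep N p) xt hli w hw0 hfin (h5_cycK p κ) S
      (fun F hF => by
        obtain ⟨ℓ, hℓ, hℓN, A, hA, hσ⟩ := hF
        exact ⟨_, hwitS ℓ hℓ hℓN A hA F hσ⟩)
      hdense
  -- the representation
  refine ⟨@ResidualGaloisRep.mk κ _ V' i1 i2 h2 ρ' ⟨K₁ ⊔ K₂, hKfd, fun σ hσ =>
    hker σ (hfixJ σ hσ) (hcyc' σ hσ)⟩, ?_, ?_⟩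
  · -- attached
    intro ℓ hℓ hℓN hℓκ A hA σ hσ
    have hℓp : ℓ ≠ p := by
      rintro rfl
      exact hℓκ (CharP.cast_eq_zero κ ℓ)
    have hℓNp : ¬ ℓ ∣ N * p := by
      intro hd
      rcases (Nat.Prime.dvd_mul hℓ).mp hd with h | h
      · exact hℓN h
      · exact hℓp ((Nat.prime_dvd_prime_iff_eq hℓ hpp).mp h)
    refine ⟨a ⟨ℓ, hℓ⟩, (hE ⟨ℓ, hℓ⟩ hℓNp).1, ?_⟩
    have h3 := hch σ ⟨ℓ, hℓ, hℓNp, A, hA, hσ⟩ _ (hwitS ℓ hℓ hℓNp A hA σ hσ)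
    rw [h5_cycK_frob κ hℓ hℓp A hA σ hσ] at h3
    exact h3
  · -- unramified
    intro ℓ hℓ hℓNp A hA τ hτ
    refine hker τ ?_ (h5_cycK_inertia κ hℓ (h5_ne_of_not_dvd hℓNp) A hA τ hτ)
    intro h j
    apply Subtype.ext
    rw [h5_coe_rho]
    exact h5_inertia_torsion hSpec hℓ hℓNp A hA τ hτ _ (h5_nsmul_coe _)

/-- The residue field `ℤ̄ ⧸ 𝔪` has characteristic `p` when `p ∈ 𝔪`. -/
theorem h5_charP_quotient (𝔪 : Ideal Zbar) [𝔪.IsMaximal] (hp : (p : Zbar) ∈ 𝔪) :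
    letI : Field (Zbar ⧸ 𝔪) := Ideal.Quotient.field 𝔪
    CharP (Zbar ⧸ 𝔪) p := by
  letI : Field (Zbar ⧸ 𝔪) := Ideal.Quotient.field 𝔪
  have h0 : ((p : ℕ) : Zbar ⧸ 𝔪) = 0 := by
    have : Ideal.Quotient.mk 𝔪 (p : Zbar) = 0 := Ideal.Quotient.eq_zero_iff_mem.mpr hp
    rwa [map_natCast] at this
  obtain ⟨q, hq⟩ := CharP.exists (Zbar ⧸ 𝔪)
  have hdvd : q ∣ p := (CharP.cast_eq_zero_iff (Zbar ⧸ 𝔪) q p).mp h0
  have hpp : p.Prime := Fact.out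
  rcases (Nat.dvd_prime hpp).mp hdvd with h1 | h1
  · exfalso
    subst h1
    have := CharP.cast_eq_zero (Zbar ⧸ 𝔪) 1
    rw [Nat.cast_one] at this
    exact one_ne_zero this
  · rw [← h1]
    exact hq

/-- **(ASM-CORE)**: `StCore ⇐ StEig + StSpec + StHeckeGal + StDens`. -/
theorem h5_stCore (g : CuspForm (CongruenceSubgroup.Gamma0 N) 2) (𝔪 : Ideal Zbar)
    [𝔪.IsMaximal] (hp : (p : Zbar) ∈ 𝔪) (hEig : StEig N p g 𝔪)
    (hSpec : Fermat.Agent.S37x.Asm.StSpec N p) (hHG : StHeckeGal N) (hDens : StDens) :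
    StCore N p g 𝔪 := by
  letI : Field (Zbar ⧸ 𝔪) := Ideal.Quotient.field 𝔪
  haveI : CharP (Zbar ⧸ 𝔪) p := h5_charP_quotient 𝔪 hp
  haveI : IsAlgClosed (Zbar ⧸ 𝔪) :=
    Fermat.Agent.S42x.Lin.H25.isAlgClosed_of_surjective (Ideal.Quotient.mk 𝔪)
      Ideal.Quotient.mk_surjective
  exact h5_core_gen (Zbar ⧸ 𝔪) (Ideal.Quotient.mk 𝔪) g hSpec hHG hDens hEig

end Fermat.Agent.S42x.Asm.H5
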