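import Mathlib
import Fermat.Agent.S42x.Lin.H25_Lin

/-!
# W7 (ASM-CORE), abstract form (helper5)

`Γ` a group acting `k`-linearly on `V` (`ρ₀`), `κ / k` an algebraically closed extension field,
`x₁, …, xₙ ∈ V` linearly independent over `k`, `w ∈ κⁿ` nonzero, the orbit of `(x_j)` finite.
A *witness* for `F ∈ Γ` and `c ∈ κ` is an endomorphism `T` of `V` commuting with `Γ`, stabilising
the span of the `x_j` with matrix `tm`, such that `w` is an eigenvector of `tm` with eigenvalue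
`c`, and such that `F² - T F + δ = 0` on `V` with `δ = d F`.

`h5_core_abs` : if a set `S ⊆ Γ` of elements with witnesses is dense (every `h` acts like a power
of an element of `S` on the orbit and on `d`), then there is a two-dimensional representation
`ρ'` of `Γ` over `κ` with characteristic polynomial `X² - c X + d F` at every `F ∈ S` (for EVERY
witness `c`), trivial on every `g` which fixes the orbit and has `d g = 1`.
-/

set_option autoImplicit false

open TensorProduct Polynomial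

namespace Fermat.Agent.S42x.Asm.H5

universe u

section Abs

variable {Γ : Type*} [Group Γ] {k : Type*} [Field k] {κ : Type u} [Field κ] [Algebra k κ]
  {V : Type u} [AddCommGroup V] [Module k V]

/-- Base change of a representation. -/
noncomputable def h5_bc (ρ₀ : Γ →* Module.End k V) : Γ →* Module.End κ (κ ⊗[k] V) where
  toFun g := (ρ₀ g).baseChange κ
  map_one' := by rw [map_one, LinearMap.baseChange_one]
  map_mul' g h := by rw [map_mul, LinearMap.baseChange_mul]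

theorem h5_bc_tmul (ρ₀ : Γ →* Module.End k V) (g : Γ) (c : κ) (v : V) :
    h5_bc (κ := κ) ρ₀ g (c ⊗ₜ[k] v) = c ⊗ₜ[k] ρ₀ g v :=
  LinearMap.baseChange_tmul _ _ _

variable {n : ℕ}

variable (k) in
/-- The linear map `Vⁿ → κ ⊗ V`, `y ↦ ∑ w_j ⊗ y_j`. -/
noncomputable def h5_vecOf (w : Fin n → κ) (y : Fin n → V) : κ ⊗[k] V :=
  ∑ j, w j ⊗ₜ[k] y j

theorem h5_bc_vecOf (ρ₀ : Γ →* Module.End k V) (g : Γ) (w : Fin n → κ) (y : Fin n → V) :
    h5_bc (κ := κ) ρ₀ g (h5_vecOf k w y) = h5_vecOf k w (fun j => ρ₀ g (y j)) := by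
  simp only [h5_vecOf, map_sum, h5_bc_tmul]

theorem h5_vecOf_ne_zero {x : Fin n → V} (hx : LinearIndependent k x) {w : Fin n → κ}
    (hw : w ≠ 0) : h5_vecOf k w x ≠ 0 := by
  have h1 : LinearIndependent κ (fun j => (1 : κ) ⊗ₜ[k] x j) :=
    Module.Flat.linearIndependent_one_tmul hx
  intro h0
  apply hw
  have h2 : ∑ j, w j • ((1 : κ) ⊗ₜ[k] x j) = 0 := by
    rw [← h0, h5_vecOf]
    refine Finset.sum_congr rfl fun j _ => ?_
    rw [TensorProduct.smul_tmul', smul_eq_mul, mul_one]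
  funext j
  exact (Fintype.linearIndependent_iff.mp h1) w h2 j

/-- The base change of an endomorphism with matrix `tm` on the `x_j` maps `∑ w_j ⊗ x_j` to
`∑ (tm w)_i ⊗ x_i`. -/
theorem h5_baseChange_vecOf (T : Module.End k V) (x : Fin n → V)
    (tm : Matrix (Fin n) (Fin n) k) (hT : ∀ j, T (x j) = ∑ i, tm i j • x i) (w : Fin n → κ) :
    T.baseChange κ (h5_vecOf k w x) =
      h5_vecOf k (fun i => ∑ j, algebraMap k κ (tm i j) * w j) x := by
  simp only [h5_vecOf, map_sum, LinearMap.baseChange_tmul, hT, TensorProduct.tmul_sum,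
    TensorProduct.sum_tmul]
  rw [Finset.sum_comm]
  refine Finset.sum_congr rfl fun i _ => Finset.sum_congr rfl fun j _ => ?_
  rw [TensorProduct.tmul_smul, TensorProduct.smul_tmul', Algebra.smul_def]

theorem h5_vecOf_smul (c : κ) (w : Fin n → κ) (x : Fin n → V) :
    h5_vecOf k (fun i => c * w i) x = c • h5_vecOf k w x := by
  simp only [h5_vecOf, Finset.smul_sum, TensorProduct.smul_tmul', smul_eq_mul]

/-- A witness for `(F, c)`. -/
def H5Wit (ρ₀ : Γ →* Module.End k V) (x : Fin n → V) (w : Fin n → κ) (d : Γ →* κˣ) (F : Γ)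
    (c : κ) : Prop :=
  ∃ (T : Module.End k V) (δ : k) (tm : Matrix (Fin n) (Fin n) k),
    (∀ g v, T (ρ₀ g v) = ρ₀ g (T v)) ∧ (∀ j, T (x j) = ∑ i, tm i j • x i) ∧
    (∀ i, ∑ j, algebraMap k κ (tm i j) * w j = c * w i) ∧
    algebraMap k κ δ = ((d F : κˣ) : κ) ∧ ∀ z, ρ₀ F (ρ₀ F z) - T (ρ₀ F z) + δ • z = 0

/-- The span of the orbit of `∑ w_j ⊗ x_j`. -/
noncomputable def h5_W (ρ₀ : Γ →* Module.End k V) (x : Fin n → V) (w : Fin n → κ) :
    Submodule κ (κ ⊗[k] V) :=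
  Submodule.span κ (Set.range fun g : Γ => h5_bc (κ := κ) ρ₀ g (h5_vecOf k w x))

variable (ρ₀ : Γ →* Module.End k V) (x : Fin n → V) (w : Fin n → κ)

theorem h5_vec_mem_W : h5_vecOf k w x ∈ h5_W ρ₀ x w := by
  apply Submodule.subset_span
  refine ⟨1, ?_⟩
  change h5_bc (κ := κ) ρ₀ 1 (h5_vecOf k w x) = _
  rw [map_one]
  rfl

theorem h5_W_ne_bot (hx : LinearIndependent k x) (hw : w ≠ 0) : h5_W ρ₀ x w ≠ ⊥ := by
  intro h
  have := h5_vec_mem_W ρ₀ x w
  rw [h, Submodule.mem_bot] at this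
  exact h5_vecOf_ne_zero hx hw this

theorem h5_W_inv (g : Γ) (y : κ ⊗[k] V) (hy : y ∈ h5_W ρ₀ x w) :
    h5_bc (κ := κ) ρ₀ g y ∈ h5_W ρ₀ x w := by
  induction hy using Submodule.span_induction with
  | mem y hy =>
    obtain ⟨h, rfl⟩ := hy
    apply Submodule.subset_span
    exact ⟨g * h, by simp only [map_mul]; rfl⟩
  | zero => rw [map_zero]; exact Submodule.zero_mem _
  | add a b _ _ ha hb => rw [map_add]; exact Submodule.add_mem _ ha hb
  | smul c a _ ha => rw [map_smul]; exact Submodule.smul_mem _ c ha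

theorem h5_W_finite (hfin : (Set.range fun g : Γ => fun j => ρ₀ g (x j)).Finite) :
    FiniteDimensional κ (h5_W ρ₀ x w) := by
  have h1 : (Set.range fun g : Γ => h5_bc (κ := κ) ρ₀ g (h5_vecOf k w x)) =
      (fun y : Fin n → V => h5_vecOf k w y) '' (Set.range fun g : Γ => fun j => ρ₀ g (x j)) := by
    ext y
    constructor
    · rintro ⟨g, rfl⟩
      exact ⟨_, ⟨g, rfl⟩, (h5_bc_vecOf ρ₀ g w x).symm⟩
    · rintro ⟨_, ⟨g, rfl⟩, rfl⟩
      exact ⟨g, h5_bc_vecOf ρ₀ g w x⟩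
  have h2 : (Set.range fun g : Γ => h5_bc (κ := κ) ρ₀ g (h5_vecOf k w x)).Finite := by
    rw [h1]
    exact hfin.image _
  exact FiniteDimensional.span_of_finite κ h2

/-- Two elements of `Γ` which agree on the orbit of the `x_j` agree on `W`. -/
theorem h5_W_congr (g g' : Γ) (h : ∀ h' j, ρ₀ g (ρ₀ h' (x j)) = ρ₀ g' (ρ₀ h' (x j)))
    (y : κ ⊗[k] V) (hy : y ∈ h5_W ρ₀ x w) :
    h5_bc (κ := κ) ρ₀ g y = h5_bc (κ := κ) ρ₀ g' y := by
  induction hy using Submodule.span_induction with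
  | mem y hy =>
    obtain ⟨h', rfl⟩ := hy
    simp only [h5_bc_vecOf]
    congr 1
    funext j
    exact h h' j
  | zero => rw [map_zero, map_zero]
  | add a b _ _ ha hb => rw [map_add, map_add, ha, hb]
  | smul c a _ ha => rw [map_smul, map_smul, ha]

theorem h5_W_fix (g : Γ) (h : ∀ h' j, ρ₀ g (ρ₀ h' (x j)) = ρ₀ h' (x j))
    (y : κ ⊗[k] V) (hy : y ∈ h5_W ρ₀ x w) : h5_bc (κ := κ) ρ₀ g y = y := by
  have := h5_W_congr ρ₀ x w g 1 (fun h' j => by rw [h h' j, map_one]; rfl) y hy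
  rw [this, map_one]
  rfl

variable {ρ₀ x w}

/-- On `W` the endomorphism `T` of a witness acts as the scalar `c`. -/
theorem h5_wit_T {c : κ} (T : Module.End k V)
    (hcomm : ∀ g v, T (ρ₀ g v) = ρ₀ g (T v))
    (tm : Matrix (Fin n) (Fin n) k) (hT : ∀ j, T (x j) = ∑ i, tm i j • x i)
    (heig : ∀ i, ∑ j, algebraMap k κ (tm i j) * w j = c * w i)
    (y : κ ⊗[k] V) (hy : y ∈ h5_W ρ₀ x w) : T.baseChange κ y = c • y := by
  have hcommM : ∀ (g : Γ) (m : κ ⊗[k] V),
      T.baseChange κ (h5_bc (κ := κ) ρ₀ g m) = h5_bc (κ := κ) ρ₀ g (T.baseChange κ m) := by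
    intro g m
    induction m using TensorProduct.induction_on with
    | zero => simp only [map_zero]
    | tmul a v => simp only [h5_bc_tmul, LinearMap.baseChange_tmul, hcomm]
    | add a b ha hb => simp only [map_add, ha, hb]
  induction hy using Submodule.span_induction with
  | mem y hy =>
    obtain ⟨g, rfl⟩ := hy
    rw [hcommM, h5_baseChange_vecOf T x tm hT w]
    have : (fun i => ∑ j, algebraMap k κ (tm i j) * w j) = fun i => c * w i := funext heig
    rw [this, h5_vecOf_smul, map_smul]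
  | zero => rw [map_zero, smul_zero]
  | add a b _ _ ha hb => rw [map_add, ha, hb, smul_add]
  | smul c' a _ ha => rw [map_smul, ha, smul_comm]

/-- The relation `F + d(F) F⁻¹ = c` on `W` from a witness. -/
theorem h5_wit_rel {d : Γ →* κˣ} {F : Γ} {c : κ} (hwit : H5Wit ρ₀ x w d F c)
    (y : κ ⊗[k] V) (hy : y ∈ h5_W ρ₀ x w) :
    h5_bc (κ := κ) ρ₀ F y + ((d F : κˣ) : κ) • h5_bc (κ := κ) ρ₀ F⁻¹ y = c • y := by
  obtain ⟨T, δ, tm, hcomm, hT, heig, hδ, hrel⟩ := hwit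
  -- the relation on `κ ⊗ V`
  have hrelM : ∀ m : κ ⊗[k] V,
      h5_bc (κ := κ) ρ₀ F (h5_bc (κ := κ) ρ₀ F m) - T.baseChange κ (h5_bc (κ := κ) ρ₀ F m)
        + ((d F : κˣ) : κ) • m = 0 := by
    intro m
    induction m using TensorProduct.induction_on with
    | zero => simp only [map_zero, smul_zero, sub_self, add_zero]
    | tmul a v =>
      simp only [h5_bc_tmul, LinearMap.baseChange_tmul]
      rw [← hδ]
      have h1 : (algebraMap k κ δ) • (a ⊗ₜ[k] v) = a ⊗ₜ[k] (δ • v) := by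
        rw [TensorProduct.smul_tmul', smul_eq_mul, ← Algebra.smul_def, TensorProduct.smul_tmul]
      rw [h1, ← TensorProduct.tmul_sub, ← TensorProduct.tmul_add, hrel v,
        TensorProduct.tmul_zero]
    | add a b ha hb =>
      simp only [map_add, smul_add]
      have e : ∀ (A B C A' B' C' : κ ⊗[k] V),
          A + A' - (B + B') + (C + C') = (A - B + C) + (A' - B' + C') := by
        intros; abel
      rw [e, ha, hb, add_zero]
  have hy' : h5_bc (κ := κ) ρ₀ F⁻¹ y ∈ h5_W ρ₀ x w := h5_W_inv ρ₀ x w F⁻¹ y hy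
  have h1 := hrelM (h5_bc (κ := κ) ρ₀ F⁻¹ y)
  have h2 : h5_bc (κ := κ) ρ₀ F (h5_bc (κ := κ) ρ₀ F⁻¹ y) = y := by
    rw [← Module.End.mul_apply, ← map_mul, mul_inv_cancel, map_one]
    rfl
  rw [h2, h5_wit_T T hcomm tm hT heig y hy] at h1
  have h3 := sub_eq_zero.mp (by rw [← h1]; abel :
    h5_bc (κ := κ) ρ₀ F y + ((d F : κˣ) : κ) • h5_bc (κ := κ) ρ₀ F⁻¹ y - c • y = 0)
  exact h3

end Abs

section Main

variable {Γ : Type*} [Group Γ] {k : Type*} [Field k] {κ : Type u} [Field κ] [Algebra k κ]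
  [IsAlgClosed κ] {V : Type u} [AddCommGroup V] [Module k V] {n : ℕ}

/-- **(ASM-CORE), abstract form.** -/
theorem h5_core_abs (ρ₀ : Γ →* Module.End k V) (x : Fin n → V) (hx : LinearIndependent k x)
    (w : Fin n → κ) (hw : w ≠ 0)
    (hfin : (Set.range fun g : Γ => fun j => ρ₀ g (x j)).Finite)
    (d : Γ →* κˣ) (S : Set Γ)
    (hS : ∀ F ∈ S, ∃ c : κ, H5Wit ρ₀ x w d F c)
    (hdense : ∀ h : Γ, ∃ F ∈ S, ∃ m : ℕ,
      (∀ g j, ρ₀ h (ρ₀ g (x j)) = ρ₀ (F ^ m) (ρ₀ g (x j))) ∧ d h = d (F ^ m)) :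
    ∃ (V' : Type u) (_ : AddCommGroup V') (_ : Module κ V') (_ : Module.Finite κ V')
      (ρ' : Γ →* Module.End κ V'),
      Module.finrank κ V' = 2 ∧
      (∀ F ∈ S, ∀ c : κ, H5Wit ρ₀ x w d F c →
        LinearMap.charpoly (ρ' F) = X ^ 2 - C c * X + C ((d F : κˣ) : κ)) ∧
      (∀ g, (∀ h j, ρ₀ g (ρ₀ h (x j)) = ρ₀ h (x j)) → d g = 1 → ρ' g = 1) := by
  classical
  have hfd : FiniteDimensional κ (h5_W ρ₀ x w) := h5_W_finite ρ₀ x w hfin
  have hne : h5_W ρ₀ x w ≠ ⊥ := h5_W_ne_bot ρ₀ x w hx hw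
  -- the function `a₀`
  let a₀ : Γ → κ := fun F => if h : ∃ c : κ, H5Wit ρ₀ x w d F c then h.choose else 0
  have ha₀ : ∀ F ∈ S, H5Wit ρ₀ x w d F (a₀ F) := by
    intro F hF
    have h := hS F hF
    simp only [a₀, dif_pos h]
    exact h.choose_spec
  -- uniqueness of the eigenvalue
  have huniq : ∀ F c c', H5Wit ρ₀ x w d F c → H5Wit ρ₀ x w d F c' → c = c' := by
    intro F c c' h h'
    have h1 := h5_wit_rel h _ (h5_vec_mem_W ρ₀ x w)
    have h2 := h5_wit_rel h' _ (h5_vec_mem_W ρ₀ x w)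
    rw [h1] at h2
    have h3 : (c - c') • h5_vecOf k w x = 0 :=
      calc (c - c') • h5_vecOf k w x = c • h5_vecOf k w x - c' • h5_vecOf k w x :=
            sub_smul c c' (h5_vecOf k w x)
        _ = 0 := by rw [h2, sub_self]
    rcases smul_eq_zero.mp h3 with h4 | h4
    · exact sub_eq_zero.mp h4
    · exact absurd h4 (h5_vecOf_ne_zero hx hw)
  obtain ⟨V', i1, i2, i3, ρ', h2, hch, hker⟩ :=
    Fermat.Agent.S42x.Lin.H25.lin_exists_of_dense_sub (h5_bc (κ := κ) ρ₀) d S a₀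
      (h5_W ρ₀ x w) hne (h5_W_inv ρ₀ x w)
      (fun F hF y hy => h5_wit_rel (ha₀ F hF) y hy)
      (fun h => by
        obtain ⟨F, hF, m, h1, h2⟩ := hdense h
        exact ⟨F, hF, m, fun y hy => h5_W_congr ρ₀ x w h (F ^ m) h1 y hy, h2⟩)
  refine ⟨V', i1, i2, i3, ρ', h2, ?_, ?_⟩
  · intro F hF c hc
    rw [hch F hF, huniq F c (a₀ F) hc (ha₀ F hF)]
  · intro g hg hdg
    exact hker g (fun y hy => h5_W_fix ρ₀ x w g hg y hy) hdg

end Main

end Fermat.Agent.S42x.Asm.H5
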