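import Fermat.Agent.S42x.Asm.H5_Gal
import Fermat.Agent.S42x.Asm.H5_CoreAbs
import Fermat.Agent.S42x.Cyc.H5_Cyc

/-!
# W7 (ASM-CORE), the module `J[p]` (helper5)

The inputs of the abstract core `h5_core_abs` for `V := J₀(N)[p]` (the prelude's `Pic0.torsion`
with its `ZMod p`-module structure) and `ρ₀ := JZero.torsionGaloisRep N p`.
-/

set_option autoImplicit false
set_option linter.unusedSectionVars false
set_option synthInstance.maxHeartbeats 400000
set_option maxHeartbeats 1000000

open ModularCurve AlgebraicCurve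

noncomputable section

namespace Fermat.Agent.S42x.Asm.H5

local notation "Qbar" => AlgebraicClosure ℚ

variable (N p : ℕ) [NeZero N]

/-- `J₀(N)[p]`. -/
abbrev H5Jp : Type := ↥(Pic0.torsion Qbar (modularFunctionFieldBar N) p)

variable {N p}

/-- A `p`-torsion class as an element of `J[p]`. -/
def h5_toJp (x : JZero N) (hx : p • x = 0) : H5Jp N p :=
  ⟨x, Pic0.mem_torsion.mpr ((natCast_zsmul x p).trans hx)⟩

@[simp]
theorem h5_coe_toJp (x : JZero N) (hx : p • x = 0) : ((h5_toJp x hx : H5Jp N p) : JZero N) = x :=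
  rfl

theorem h5_nsmul_coe (y : H5Jp N p) : p • (y : JZero N) = 0 := by
  have := Pic0.mem_torsion.mp y.2
  exact (natCast_zsmul (y : JZero N) p).symm.trans this

theorem h5_coe_rho (σ : GQ) (y : H5Jp N p) :
    ((JZero.torsionGaloisRep N p σ y : H5Jp N p) : JZero N) = σ • (y : JZero N) :=
  rfl

theorem h5_coe_zmod_smul (c : ZMod p) (m : ℤ) (hc : (m : ZMod p) = c) (y : H5Jp N p) :
    ((c • y : H5Jp N p) : JZero N) = m • (y : JZero N) := by
  rw [← hc, Int.cast_smul_eq_zsmul]
  rfl

variable (N p) in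
/-- The Hecke operator `T_ℓ` on `J[p]`. -/
def h5_TJ (ℓ : Nat.Primes) : Module.End (ZMod p) (H5Jp N p) :=
  AddMonoidHom.toZModLinearMap p
    { toFun := fun y => h5_toJp (heckeOperatorBar N ℓ (y : JZero N))
        (by rw [← map_nsmul, h5_nsmul_coe, map_zero])
      map_zero' := Subtype.ext (map_zero (heckeOperatorBar N ℓ))
      map_add' := fun y z => Subtype.ext (map_add (heckeOperatorBar N ℓ) _ _) }

theorem h5_coe_TJ (ℓ : Nat.Primes) (y : H5Jp N p) :
    ((h5_TJ N p ℓ y : H5Jp N p) : JZero N) = heckeOperatorBar N ℓ (y : JZero N) :=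
  rfl

/-- Linear independence over `ZMod p` from the independence clause of `StEig`. -/
theorem h5_linearIndependent [Fact p.Prime] {n : ℕ} (x : Fin n → JZero N)
    (hx : ∀ j, p • x j = 0)
    (hind : ∀ c : Fin n → ℤ, ∑ j, c j • x j = 0 → ∀ j, (p : ℤ) ∣ c j) :
    LinearIndependent (ZMod p) (fun j => (h5_toJp (x j) (hx j) : H5Jp N p)) := by
  rw [Fintype.linearIndependent_iff]
  intro c hc j
  have h1 : ∑ j, ((c j).val : ℤ) • x j = 0 := by
    have h2 := congrArg (Subtype.val : H5Jp N p → JZero N) hc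
    rw [AddSubgroup.val_finsetSum] at h2
    rw [← h2.trans (ZeroMemClass.coe_zero _)]
    refine Finset.sum_congr rfl fun i _ => ?_
    rw [h5_coe_zmod_smul (c i) ((c i).val : ℤ) (by simp)]
    rfl
  have h3 := hind _ h1 j
  have h4 : (((c j).val : ℤ) : ZMod p) = 0 := (ZMod.intCast_zmod_eq_zero_iff_dvd _ p).mpr h3
  simpa using h4

/-- A map which factors through a finite set has finite range. -/
theorem h5_finite_range_of_factor {α β E : Type*} [Finite E] (F : α → β) (φ : α → E)
    (h : ∀ a a', φ a = φ a' → F a = F a') : (Set.range F).Finite := by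
  classical
  refine Set.Finite.subset
    (Set.finite_range (fun e : Set.range φ => F e.2.choose)) ?_
  rintro _ ⟨a, rfl⟩
  exact ⟨⟨φ a, a, rfl⟩, h _ _ (Exists.choose_spec (⟨a, rfl⟩ : φ a ∈ Set.range φ))⟩

/-- The Galois orbit of finitely many classes is finite. -/
theorem h5_orbit_finite {n : ℕ} (x : Fin n → H5Jp N p) :
    (Set.range fun g : GQ => fun j => JZero.torsionGaloisRep N p g (x j)).Finite := by
  obtain ⟨K₀, hK₀, h⟩ := h5_stab_fin N (fun j => ((x j : H5Jp N p) : JZero N))
  have hfin : Finite (K₀ →ₐ[ℚ] Qbar) := inferInstance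
  refine h5_finite_range_of_factor _
    (fun g : GQ => ((g : Qbar →ₐ[ℚ] Qbar).comp K₀.val : K₀ →ₐ[ℚ] Qbar)) ?_
  intro g g' hgg'
  funext j
  apply Subtype.ext
  change g • ((x j : H5Jp N p) : JZero N) = g' • ((x j : H5Jp N p) : JZero N)
  have h1 : ∀ a ∈ K₀, (g⁻¹ * g') a = a := by
    intro a ha
    have h2 := congrArg (fun f : K₀ →ₐ[ℚ] Qbar => f ⟨a, ha⟩) hgg'
    change g a = g' a at h2
    change g⁻¹ (g' a) = a
    rw [← h2]
    exact g.symm_apply_apply a
  have h3 := h (g⁻¹ * g') h1 j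
  calc g • ((x j : H5Jp N p) : JZero N) = g • ((g⁻¹ * g') • ((x j : H5Jp N p) : JZero N)) := by
        rw [h3]
    _ = g' • ((x j : H5Jp N p) : JZero N) := by
        rw [← mul_smul, mul_inv_cancel_left]

end Fermat.Agent.S42x.Asm.H5
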