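import Fermat.Agent.S42x.Asm.H5_Core
import Fermat.Agent.S42x.Asm.H10_TopS42
import Fermat.Agent.S42x.Asm.H10_TopS29
import Fermat.Agent.S42x.Gal.H19_StHeckeGal
import Fermat.Agent.S42x.Dens.H16_Dens
import Fermat.Agent.S42x.Cyc.H5_Frey

/-!
# W7, the top plugs (helper5)

The frozen statements of S42 and S29 from the TWO Props which are still open:

* (EIG) `Asm.StEig N p g 𝔪` for every normalized eigenform `g` of level `N ≥ 1`;
* (GAL) `S37x.Asm.StSpec N p` (the core of S37).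

Everything else is plugged: (ASM-CORE) `h5_stCore`, (GAL') helper19's `stHeckeGal`, (DENS)
helper16's `stDens`, (FREY) `h5_frey_level`, the tops of helper10.
-/

set_option autoImplicit false
set_option linter.style.haveILetI false

namespace Fermat.Agent.S42x.Asm.H5

open Fermat.Agent.S42x.Asm

/-- `StCore` from (EIG) and (GAL). -/
theorem h5_stCore_of_two {N p : ℕ} [NeZero N] [Fact p.Prime]
    (g : CuspForm (CongruenceSubgroup.Gamma0 N) 2) (𝔪 : Ideal Zbar) [𝔪.IsMaximal]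
    (hp : (p : Zbar) ∈ 𝔪) (hEig : StEig N p g 𝔪)
    (hSpec : Fermat.Agent.S37x.Asm.StSpec N p) : StCore N p g 𝔪 :=
  h5_stCore g 𝔪 hp hEig hSpec (Fermat.Agent.S42x.Gal.H19.stHeckeGal N)
    Fermat.Agent.S42x.Dens.H16.stDens

/-- **The frozen statement of S42** from (EIG) and (GAL) at the prime of the Frey package. -/
theorem h5_s42_of_two (P : FreyPackage)
    (hEig : ∀ (M : ℕ) [NeZero M] (g : CuspForm (CongruenceSubgroup.Gamma0 M) 2),
      g.IsNormalizedEigenform → ∀ (𝔪 : Ideal Zbar) [𝔪.IsMaximal],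
        ((P.p : ℕ) : Zbar) ∈ 𝔪 → StEig M P.p g 𝔪)
    (hSpec : ∀ (M : ℕ) [NeZero M], Fermat.Agent.S37x.Asm.StSpec M P.p) :
    ∀ M : ℕ, 0 < M → P.EigenformResidualAttachmentAt M := by
  haveI : Fact P.p.Prime := ⟨P.pp⟩
  refine Fermat.Agent.S42x.Asm.H10.h10_s42_of_forall_core P
    (Fermat.Agent.S42x.Cyc.H5.h5_frey_level P) ?_
  intro M hM g hg 𝔪 _ hp
  haveI : NeZero M := ⟨hM.ne'⟩
  exact h5_stCore_of_two g 𝔪 hp (hEig M g hg 𝔪 hp) (hSpec M)

/-- **The frozen statement of S29** from (EIG) and (GAL) at every prime. -/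
theorem h5_s29_of_two
    (hEig : ∀ (N : ℕ) [NeZero N] (g : CuspForm (CongruenceSubgroup.Gamma0 N) 2),
      g.IsNormalizedEigenform → ∀ (p : ℕ) [Fact p.Prime] (𝔪 : Ideal Zbar) [𝔪.IsMaximal],
        ((p : ℕ) : Zbar) ∈ 𝔪 → StEig N p g 𝔪)
    (hSpec : ∀ (N : ℕ) [NeZero N] (p : ℕ), p.Prime → Fermat.Agent.S37x.Asm.StSpec N p)
    {N : ℕ} {g : CuspForm (CongruenceSubgroup.Gamma0 N) 2} (hg : g.IsNormalizedEigenform)
    {p : ℕ} (hp : p.Prime) {k : Type} [Field k] [CharP k p]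
    (φ : integralClosure ℤ ℂ →+* k) :
    ∃ ρ : ResidualGaloisRep k, ρ.IsAttachedTo g φ ∧
      ∀ ℓ : ℕ, ℓ.Prime → ¬ ℓ ∣ N * p → ρ.IsUnramifiedAt ℓ := by
  refine Fermat.Agent.S42x.Asm.H10.h10_s29_of_forall_core ?_ hg hp φ
  intro N hN g hg p hp 𝔪 _ hpm
  haveI : NeZero N := ⟨hN⟩
  haveI : Fact p.Prime := ⟨hp⟩
  exact h5_stCore_of_two g 𝔪 hpm (hEig N g hg p 𝔪 hpm) (hSpec N p hp)

end Fermat.Agent.S42x.Asm.H5
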